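import Fermat.Agent.GAL.KLC.Integral

/-!
# KL-C leaf T1.1: a basis of `E / K(y)` adapted to `B_y = chartRing R y`
-/

set_option autoImplicit false
set_option linter.unusedSectionVars false

namespace Fermat.Agent.GAL.KLC

open AlgebraicCurve Polynomial IntermediateField Module Fermat.Agent.Lib.RR Fermat.Agent.GAL.RED

variable {K E k Eb : Type} [Field K] [Field E] [Algebra K E] [Field k] [Field Eb] [Algebra k Eb]
variable [IsAlgClosed K] [CharZero K] [IsFF K E] [IsAlgClosed k]
variable {R : RedData K E k Eb} {y : E}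

/-- the reduction of an element of `B_y` is integral over `k[ybar]`.
PROOF. apply `R.red` to the monic equation of `isIntegralElem_of_mem_chartRing`
(`R.red_aeval_map`, `R.red_sum`, `R.red_mul`, `R.red_pow`). -/
theorem isIntegral_red (hy : Chart R y) (x : E) (hx : x ∈ chartRing R y) :
    IsIntegral (Algebra.adjoin k {R.red y}) (R.red x) := by
  sorry

/-- denominators: every `z ∈ O` becomes an element of `B_y` after multiplication by a primitive
polynomial in `y`.
PROOF. `z = 0` trivial. The set of places `P` with `y ∈ P`, `P.ord z < 0` is finite (support of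
`divOf z`). For such a `P` with `β = pv P y` put `d_P = y - β` if `β ∈ A` and `d_P = 1 - β⁻¹ y` otherwise:
`d_P = polyHom q_P` with `q_P` primitive, `0 < P.ord d_P`. `q = ∏ q_P ^ N`, `N` large. -/
theorem exists_denominator (hy : Chart R y) (z : E) (hz : z ∈ R.O) :
    ∃ q : (↥R.A)[X], q.map R.resA ≠ 0 ∧ polyHom R y q * z ∈ chartRing R y := by
  sorry

/-- **Leaf T1.1a.** `Bbar = red (B_y)` is a free `k[ybar]`-module of rank `n`, with a basis which is a
`k(ybar)`-basis of `Eb`.
PROOF. `T := Algebra.adjoin k {ybar} ≃ k[X]` is a PID (`hy.trans`), `Cbar := integralClosure T Eb` is a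
finite `T`-module (`IsIntegralClosure.finite`, `hy.sep`, `hy.finb`; fraction field of `T` is `k(ybar)`:
`IntermediateField.algebraAdjoinAdjoin` instances as in `S24/LocalCount.lean`). `Bbar` is a `T`-submodule
of `Cbar` (`isIntegral_red`; it is stable under `T` since `A[y] ⊆ B_y` and `A → k` is onto), hence finitely
generated (noetherian), torsion free, hence free (`Module.free_of_finite_type_torsion_free'`,
`Submodule.basisOfPid`...) with a basis `w_1 .. w_r`. The `w_i` are linearly independent over
`k(ybar) = Frac T` (clear denominators) and span `Eb` (`exists_denominator`, `R.exists_lift`), so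
`r = [Eb : k(ybar)] = n` (`hy.deg`). Lift `w_i = red (b i)`, `b i ∈ B_y`. -/
theorem exists_lifts_basis (hy : Chart R y) :
    ∃ b : Fin (finrank K⟮y⟯ E) → E, (∀ i, b i ∈ chartRing R y) ∧
      LinearIndependent k⟮R.red y⟯ (fun i => R.red (b i)) ∧
      ∀ x ∈ chartRing R y, ∃ p : Fin (finrank K⟮y⟯ E) → k[X],
        R.red x = ∑ i, aeval (R.red y) (p i) * R.red (b i) := by
  sorry

/-- **Leaf T1.1b (adapted basis).** There is an orthonormal basis of `E / K(y)` contained in `B_y` which
is *saturated*: no nontrivial combination with constant coefficients is divisible by `y - β` in `B_y`.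
PROOF. `b` from `exists_lifts_basis`, `B` from `exists_orthonormal_of_lifts`. Saturation: let
`x = (∑ μ i B i) / (y - β) ∈ B_y`, `red x = ∑ p_i(ybar) red (B i)`. Then
`∑ (redA (μ i)) red (B i) = (ybar - redA β) ∑ p_i(ybar) red (B i)`; by independence over `k(ybar)`:
`redA (μ i) = (ybar - redA β) p_i(ybar)` in `Eb`, i.e. `C (redA (μ i)) = (X - C (redA β)) * p_i` in `k[X]`
(`hy.trans`); compare degrees / evaluate at `redA β`: `redA (μ i) = 0`. -/
theorem exists_adapted_basis (hy : Chart R y) :
    ∃ B : Basis (Fin (finrank K⟮y⟯ E)) K⟮y⟯ E, Orthonormal R B ∧ (∀ i, B i ∈ chartRing R y) ∧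
      ∀ (β : K) (μ : Fin (finrank K⟮y⟯ E) → K), β ∈ R.A → (∀ i, μ i ∈ R.A) →
        (∑ i, algebraMap K E (μ i) * B i) / (y - algebraMap K E β) ∈ chartRing R y →
        ∀ i, R.redA (μ i) = 0 := by
  sorry

end Fermat.Agent.GAL.KLC
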