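import Fermat.Agent.GAL.KLC.Gauss

/-!
# KL-C leaf AP: approximate `m`-th roots of elements `≡ 1`
-/

set_option autoImplicit false
set_option linter.unusedSectionVars false

namespace Fermat.Agent.GAL.KLC

open Polynomial Fermat.Agent.GAL.RED

variable {K E k Eb : Type} [Field K] [Field E] [Algebra K E] [Field k] [Field Eb] [Algebra k Eb]

/-- universal approximate `m`-th roots of `X` near `1`: `S₀ = 1`, `S_{n+1} = S_n + (X - S_n ^ m) / m`. -/
noncomputable def apxP (K : Type) [Field K] (m : ℕ) : ℕ → K[X]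
  | 0 => 1
  | n + 1 => apxP K m n + C ((m : K)⁻¹) * (X - apxP K m n ^ m)

variable (R : RedData K E k Eb)

/-- `m` is a unit of `A`. (`R.redA_natCast`, `R.redA_ne_zero_iff`.) -/
theorem inv_natCast_mem {m : ℕ} (hm : (m : k) ≠ 0) : ((m : K)⁻¹) ∈ R.A := by
  sorry

/-- the coefficients of `apxP` are in `A`. -/
theorem exists_map_apxP {m : ℕ} (hm : (m : k) ≠ 0) (n : ℕ) :
    ∃ q : (↥R.A)[X], q.map R.A.subtype = apxP K m n := by
  sorry

/-- **Leaf AP1.** `S_n(w) ^ m ≡ w mod π ^ (n+1)` if `w ≡ 1 mod π`.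
PROOF. Induction on `n`. `S = S_n(w)`, `red S = 1`, `w - S ^ m = π ^ (n+1) z`. `δ = (w - S^m)/m`.
`(S + δ)^m = S^m + m S^(m-1) δ + δ² r` with `r ∈ O` (`Polynomial.binomExpansion` for `X ^ m` in the ring
`↥R.O`, or `add_pow` + crude estimate), so
`w - (S+δ)^m = (w - S^m)(1 - S^(m-1)) - δ² r`; `1 - S^(m-1) ∈ π O`: strengthen the induction hypothesis
to `S - 1 ∈ π O`. -/
theorem apx_spec {m : ℕ} (hm : (m : k) ≠ 0) {w : E} {π : K} (hπ : π ∈ R.A) (hπ0 : R.redA π = 0)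
    (hw : ∃ z ∈ R.O, w - 1 = algebraMap K E π * z) (n : ℕ) :
    R.red (aeval w (apxP K m n)) = 1 ∧
      ∃ z ∈ R.O, aeval w (apxP K m n) ^ m - w = algebraMap K E (π ^ (n + 1)) * z := by
  sorry

/-- **Leaf AP2.** uniqueness of approximate roots.
PROOF. `s^m - t^m = (s - t) * ∑_{i<m} s^i t^(m-1-i)` (`Commute.mul_geom_sum₂` / `mul_geom_sum₂`...), the
second factor has reduction `m ≠ 0`, so it is a unit of `O`. -/
theorem approx_unique {m : ℕ} (hm : (m : k) ≠ 0) {ϖ : K} {f s t : E}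
    (hs : R.red s = 1) (ht : R.red t = 1)
    (hsf : ∃ z ∈ R.O, s ^ m - f = algebraMap K E ϖ * z)
    (htf : ∃ z ∈ R.O, t ^ m - f = algebraMap K E ϖ * z) :
    ∃ z ∈ R.O, s - t = algebraMap K E ϖ * z := by
  sorry

/-- an element with reduction `1`, different from `1`, is `≡ 1` modulo a nonzero nonunit constant. -/
theorem exists_modulus (hscale : ∀ f : E, f ≠ 0 → ∃ c : K, c ≠ 0 ∧ R.red (algebraMap K E c * f) ≠ 0)
    {w : E} (hw : R.red w = 1) (hw1 : w ≠ 1) :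
    ∃ π : K, π ∈ R.A ∧ π ≠ 0 ∧ R.redA π = 0 ∧ ∃ z ∈ R.O, w - 1 = algebraMap K E π * z := by
  sorry

end Fermat.Agent.GAL.KLC
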