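import Fermat.Agent.GAL.KLC.Point
import Fermat.Agent.GAL.FF.RH.Fibre

/-!
# KL-C leaf T3a: the averaging operator `(1/e) Tr` of a Kummer cover
-/

set_option autoImplicit false
set_option linter.unusedSectionVars false

namespace Fermat.Agent.GAL.KLC

open AlgebraicCurve Polynomial IntermediateField Module Fermat.Agent.Lib.RR Fermat.Agent.GAL.RED

variable {K E k Eb : Type} [Field K] [Field E] [Algebra K E] [Field k] [Field Eb] [Algebra k Eb]
variable [IsAlgClosed K] [CharZero K] [IsFF K E]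
variable {E' Eb' : Type} [Field E'] [Algebra K E'] [Algebra E E'] [IsScalarTower K E E']
  [Field Eb'] [Algebra k Eb'] [IsFF K E']
variable {R : RedData K E k Eb} {R' : RedData K E' k Eb'} {c : E} {γ : K} {y : E'} {e : ℕ}

/-- `(1/e) Tr_{E'/E}`. -/
noncomputable def avg (E : Type) {E' : Type} [Field E] [Field E'] [Algebra E E'] (e : ℕ) (x : E') : E :=
  (e : E)⁻¹ * Algebra.trace E E' x

theorem avg_add (e : ℕ) (x x' : E') : avg E e (x + x') = avg E e x + avg E e x' := by
  simp [avg, mul_add]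

theorem avg_mul_left (e : ℕ) (b : E) (x : E') :
    avg E e (algebraMap E E' b * x) = b * avg E e x := by
  rw [avg, avg, ← Algebra.smul_def, map_smul, smul_eq_mul]; ring

/-- `avg (b) = b`. (`Algebra.trace_algebraMap`, `hcov.finrank`, char. 0.) -/
theorem Cover.avg_algebraMap (hcov : Cover R R' c γ y e) (b : E) :
    avg E e (algebraMap E E' b) = b := by
  sorry

/-- `avg x = (1/e) ∑_σ σ x`. (`Algebra.trace_eq_sum_automorphisms`, `hcov.galois`.) -/
theorem Cover.algebraMap_avg (hcov : Cover R R' c γ y e) [Fintype (E' ≃ₐ[E] E')] (x : E') :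
    algebraMap E E' (avg E e x) = (e : E')⁻¹ * ∑ σ : E' ≃ₐ[E] E', σ x := by
  sorry

/-- the automorphisms of `E' / E` permute the places; `σ` as a `K`-automorphism:
`σ.restrictScalars K`; action on places: Prelude `Place` `SMul (F ≃ₐ[K] F) (Place K F)`,
`Place.smul_toValuationSubring`, `ValuationSubring.mem_pointwise_smul_iff_inv_smul_mem`.
If `algebraMap c ∈ P'` then `y ∈ σ • P'` for all `σ` (the restriction of `σ • P'` to `E` is that of `P'`,
and `y ^ e = c - γ`, valuation rings are integrally closed). -/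
theorem Cover.aut_mem_place (hcov : Cover R R' c γ y e) (P' : Place K E')
    (hc : algebraMap E E' c ∈ P'.toValuationSubring) {x : E'} (hx : x ∈ Reg K y)
    (σ : E' ≃ₐ[E] E') : σ x ∈ P'.toValuationSubring := by
  sorry

/-- **T3a-1** `avg` maps `O'` to `O`. (`he`: `(e : K)⁻¹ ∈ A`; `hcov.aut_mem`, `hcov.mem_O_iff`.) -/
theorem Cover.avg_mem_O (hcov : Cover R R' c γ y e) (he : (e : k) ≠ 0) {x : E'} (hx : x ∈ R'.O) :
    avg E e x ∈ R.O := by
  sorry

/-- **T3a-2** `avg` maps `Reg K y` to `Reg K c`.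
PROOF. Let `P ∋ c`. Take `P'` above `P` (`GAL.FF.restrict_surjective`). All `σ x ∈ P'`
(`aut_mem_place`), so `algebraMap (avg x) ∈ P'`, i.e. `avg x ∈ P'.restrict E = P`. -/
theorem Cover.avg_mem_Reg (hcov : Cover R R' c γ y e) {x : E'} (hx : x ∈ Reg K y) :
    avg E e x ∈ Reg K c := by
  sorry

theorem Cover.avg_mem_chartRing (hcov : Cover R R' c γ y e) (he : (e : k) ≠ 0) {x : E'}
    (hx : x ∈ chartRing R' y) : avg E e x ∈ chartRing R c :=
  ⟨hcov.avg_mem_O he hx.1, hcov.avg_mem_Reg hx.2⟩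

/-- **T3a-3** `avg` maps `ModK K y f m` to `ModK K c f m`.
PROOF. Let `P ∋ c`, `P'` above `P`. For every `σ`: `(σ g) ^ m * f⁻¹ = σ (g ^ m * f⁻¹) ∈ P'` because
`g ^ m * f⁻¹` lies in `σ⁻¹ • P'`, which contains `y`. The set `{h | h ^ m * f⁻¹ ∈ P'}` is stable under sums and
multiplication by constants (same computation as in `ModK`: valuation `v(h)^m ≤ v(f)`). -/
theorem Cover.avg_mem_ModK (hcov : Cover R R' c γ y e) (f : E) (m : ℕ) [NeZero m] {g : E'}
    (hg : g ∈ ModK K y (algebraMap E E' f) m) : avg E e g ∈ ModK K c f m := by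
  sorry

end Fermat.Agent.GAL.KLC
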