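import Fermat.Agent.GAL.KLC.Integral

/-!
# KL-C block T4a: bounded torsion of the Čech `H¹` (valued linear algebra)

`Λ₀` a finitely generated `K[c]`-submodule of `E`, `Λ₁` a `K[1/c]`-submodule, commensurable after inverting
`c`. Then the Čech differential `Λ₀ ⊕ Λ₁ → E` is *strict* for the Gauss norm.
-/

set_option autoImplicit false
set_option linter.unusedSectionVars false

namespace Fermat.Agent.GAL.KLC

open AlgebraicCurve Polynomial IntermediateField Module Fermat.Agent.Lib.RR Fermat.Agent.GAL.RED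

variable {K E k Eb : Type} [Field K] [Field E] [Algebra K E] [Field k] [Field Eb] [Algebra k Eb]

/-- the data of a "vector bundle on `P¹`" inside `E`. -/
structure CechData (K : Type) {E : Type} [Field K] [Field E] [Algebra K E] (c : E)
    (Λ₀ Λ₁ : Submodule K E) : Prop where
  mul₀ : ∀ (p : K[X]), ∀ g ∈ Λ₀, aeval c p * g ∈ Λ₀
  mul₁ : ∀ (p : K[X]), ∀ g ∈ Λ₁, aeval c⁻¹ p * g ∈ Λ₁
  fg₀ : ∃ (r : ℕ) (u : Fin r → E), (∀ i, u i ∈ Λ₀) ∧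
    ∀ g ∈ Λ₀, ∃ p : Fin r → K[X], g = ∑ i, aeval c (p i) * u i
  shift₀ : ∀ g ∈ Λ₀, ∃ d : ℕ, c⁻¹ ^ d * g ∈ Λ₁
  shift₁ : ∀ g ∈ Λ₁, ∃ d : ℕ, c ^ d * g ∈ Λ₀

/-- **Leaf C1.** a finitely generated `K[c]`-submodule of `E` is free.
PROOF. Make `E` a `K[X]`-module through `aeval c` (`Module.compHom E (aeval c).toRingHom`, as a local
instance); it is torsion free because `c` is transcendental; the `K[X]`-span of `u` is a finitely generated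
torsion free module over a PID: `Module.free_of_finite_type_torsion_free'` + `Module.Free.chooseBasis` +
`Module.Finite.finite_basis`, or `Submodule.basisOfPid`. Translate back. -/
theorem exists_polyIndep_generators {c : E} (hc : Transcendental K c) {r : ℕ} (u : Fin r → E) :
    ∃ (r' : ℕ) (u' : Fin r' → E), PolyIndep K c u' ∧
      (∀ i, ∃ p : Fin r → K[X], u' i = ∑ j, aeval c (p j) * u j) ∧
      (∀ j, ∃ p : Fin r' → K[X], u j = ∑ i, aeval c (p i) * u' i) := by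
  sorry

variable [IsAlgClosed K] [CharZero K] [IsFF K E]
variable {R : RedData K E k Eb} {c : E}

/-- **Leaf C2 (bounded coordinates).**
PROOF. `u` is linearly independent over `K(c)` (clear denominators in a relation: every element of `K(c)` is
`aeval c p / aeval c q`, `IntermediateField.mem_adjoin_simple_iff`). So the `K(c)`-linear map
`(Fin r → K(c)) → E`, `e_i ↦ u i` is injective and has a left inverse `φ`
(`LinearMap.exists_leftInverse_of_injective`). Let `B` be an orthonormal basis (`exists_orthonormal`). By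
`hR.scale` (finitely many elements `φ (B l) i ∈ K(c) ⊆ E`; product of the scaling constants, or
`R.exists_scale_family`-like argument) there is `C₁ ∈ A`, `C₁ ≠ 0` with `C₁ φ (B l) i ∈ O` for all `l, i`.
For `ξ = c⁻¹ ^ d ∑ p_i(c) u i ∈ O`: `ξ = ∑_l x_l B l`, `x_l ∈ O` (`Orthonormal.repr_mem`), so
`C₁ c⁻¹ ^ d p_i(c) = C₁ φ(ξ)_i = ∑_l x_l C₁ φ (B l) i ∈ O`; multiply by `c ^ d ∈ O`: `(C₁ p_i)(c) ∈ O`;
`exists_map_of_aeval_mem`. -/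
theorem exists_bound_coeff (hR : Ctx R) (hc : Chart R c) {r : ℕ} (u : Fin r → E)
    (hu : PolyIndep K c u) :
    ∃ C₁ : K, C₁ ∈ R.A ∧ C₁ ≠ 0 ∧ ∀ (d : ℕ) (p : Fin r → K[X]),
      c⁻¹ ^ d * ∑ i, aeval c (p i) * u i ∈ R.O → ∀ i j, C₁ * (p i).coeff j ∈ R.A := by
  sorry

/-- **Leaf C3 (finite dimensional part).** Let `ω : ι → E` be a finite family. There is `C₂ ≠ 0` in `A` such
that every combination `∑ a_i ω_i` with `a_i ∈ A` which lies in `Λ₀ + Λ₁` is, after multiplication by `C₂`, a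
sum of elements of `Λ₀ ∩ O` and `Λ₁ ∩ O`.
PROOF. `Ω : (ι → K) →ₗ[K] E`, `W := (Λ₀ ⊔ Λ₁).comap Ω`. Choose a `K`-linear projection `pr` of `ι → K` onto
`W` (`Submodule.exists_isCompl`, `Submodule.linearProjOfIsCompl`, or `LinearMap.exists_leftInverse_of_injective
W.subtype`). For each `i`: `Ω (pr e_i) = g₀ⁱ + g₁ⁱ` with `g₀ⁱ ∈ Λ₀`, `g₁ⁱ ∈ Λ₁` (`Submodule.mem_sup`). By `hR.scale`
there is `C₂ ∈ A`, `≠ 0`, with `C₂ g₀ⁱ, C₂ g₁ⁱ ∈ O` for all `i`. For `a ∈ W` with entries in `A`: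
`a = pr a = ∑ a_i pr e_i`, so `C₂ Ω a = ∑ a_i (C₂ g₀ⁱ) + ∑ a_i (C₂ g₁ⁱ)`. -/
theorem exists_bound_findim (hR : Ctx R) (Λ₀ Λ₁ : Submodule K E) {ι : Type} [Fintype ι]
    (ω : ι → E) :
    ∃ C₂ : K, C₂ ∈ R.A ∧ C₂ ≠ 0 ∧ ∀ a : ι → K, (∀ i, a i ∈ R.A) →
      ∑ i, algebraMap K E (a i) * ω i ∈ Λ₀ ⊔ Λ₁ →
      ∃ g₀ ∈ Λ₀, ∃ g₁ ∈ Λ₁, g₀ ∈ R.O ∧ g₁ ∈ R.O ∧
        algebraMap K E C₂ * ∑ i, algebraMap K E (a i) * ω i = g₀ + g₁ := by
  sorry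

/-- **Block T4a.**
PROOF. By `h.fg₀` and C1 take `u : Fin r → E` in `Λ₀`, `PolyIndep`, generating `Λ₀` over `K[c]`; scale the `u i`
into `O` (`hR.scale`; multiplying by nonzero constants preserves everything). Take `d` with
`c⁻¹ ^ d * u i ∈ Λ₁` for all `i` (`h.shift₀`, maximum, `h.mul₁`). `C₁` from C2; `C₂` from C3 for
`ω (i, t) = c⁻¹ ^ (t+1) * u i`, `t < d`. `C := C₁ C₂`.
Let `ξ = g₀ - g₁ ∈ O`. By `h.shift₁`, `c ^ d₁ g₁ ∈ Λ₀`; so `ξ = c⁻¹ ^ d₁ ∑ P_i(c) u i` with `P_i ∈ K[X]`, and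
`C₁ P_i ∈ A[X]`. Split `P_i = ∑_j a_{ij} X^j`: terms with `j ≥ d₁` give `ξ⁺ ∈ Λ₀` with `C₁ ξ⁺ ∈ O`; terms with
`j + d ≤ d₁` give `ξ⁻ ∈ Λ₁` (`c⁻¹ ^ (d₁ - j) u i = (c⁻¹) ^ (d₁ - j - d) (c⁻¹ ^ d u i)`), `C₁ ξ⁻ ∈ O`; the remaining terms
give `ξ° = ∑ a_{ij} ω (i, d₁ - j - 1)`, and `ξ° = g₀ - g₁ - ξ⁺ - ξ⁻ ∈ Λ₀ ⊔ Λ₁`; apply C3 to `C₁ ξ°`. (`c, c⁻¹ ∈ O`.) -/
theorem cech_bounded (hR : Ctx R) (hc : Chart R c) (Λ₀ Λ₁ : Submodule K E)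
    (h : CechData K c Λ₀ Λ₁) :
    ∃ C : K, C ∈ R.A ∧ C ≠ 0 ∧ ∀ g₀ ∈ Λ₀, ∀ g₁ ∈ Λ₁, g₀ - g₁ ∈ R.O →
      ∃ g₀' ∈ Λ₀, ∃ g₁' ∈ Λ₁, g₀' ∈ R.O ∧ g₁' ∈ R.O ∧
        algebraMap K E C * (g₀ - g₁) = g₀' - g₁' := by
  sorry

end Fermat.Agent.GAL.KLC
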