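import Fermat.Agent.GAL.KLC.Avg

/-!
# KL-C block T3: descent of the local claim along a Kummer cover
-/

set_option autoImplicit false
set_option linter.unusedSectionVars false

namespace Fermat.Agent.GAL.KLC

open AlgebraicCurve Polynomial IntermediateField Module Fermat.Agent.Lib.RR Fermat.Agent.GAL.RED

variable {K E k Eb : Type} [Field K] [Field E] [Algebra K E] [Field k] [Field Eb] [Algebra k Eb]
variable [IsAlgClosed K] [CharZero K] [IsFF K E] [IsAlgClosed k]
variable {E' Eb' : Type} [Field E'] [Algebra K E'] [Algebra E E'] [IsScalarTower K E E']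
  [Field Eb'] [Algebra k Eb'] [IsFF K E']
variable {R : RedData K E k Eb} {R' : RedData K E' k Eb'} {c : E} {γ : K} {y : E'} {e : ℕ}

theorem Cover.incl_cst (hcov : Cover R R' c γ y e) (a : K) (ha : a ∈ R.A) :
    hcov.incl (cst R c a ha) = cst R' y a ((hcov.mem_A_iff a).mpr ha) :=
  Subtype.ext (IsScalarTower.algebraMap_apply K E E' a).symm

/-- a point of the cover killing the kernel of `χ` lies over `χ`. -/
theorem Cover.comp_incl_eq (hcov : Cover R R' c γ y e) {χ : ↥(chartRing R c) →+* k}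
    (hχ : IsPt R c χ) {χ' : ↥(chartRing R' y) →+* k} (hχ' : IsPt R' y χ')
    (h : ∀ b ∈ RingHom.ker χ, χ' (hcov.incl b) = 0) : χ'.comp hcov.incl = χ := by
  ext b
  obtain ⟨a, ha, hab⟩ := hχ.exists_cst b
  have h1 : b - cst R c a ha ∈ RingHom.ker χ := by
    rw [RingHom.mem_ker, map_sub, hab, sub_self]
  have h2 := h _ h1
  rw [map_sub, map_sub, sub_eq_zero, hcov.incl_cst, hχ', hcov.redA_eq, ← hχ a ha, ← hab] at h2
  exact h2

/-- **Block T3.** -/
theorem descent (hR' : Ctx R') (hy : Chart R' y) (hcov : Cover R R' c γ y e) (he : (e : k) ≠ 0)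
    (m : ℕ) [NeZero m] (f s : E) (hs : s ∈ R.O) (ϖ : K) (hϖA : ϖ ∈ R.A) (hϖ0 : ϖ ≠ 0)
    (χ : ↥(chartRing R c) →+* k) (hχ : IsPt R c χ)
    (H : ∀ χ' : ↥(chartRing R' y) →+* k, IsPt R' y χ' → χ'.comp hcov.incl = χ →
      ∃ a' ∈ goodIdeal R' y (algebraMap E E' f) m ϖ (algebraMap E E' s), χ' a' ≠ 0) :
    ∃ a ∈ goodIdeal R c f m ϖ s, χ a ≠ 0 := by
  classical
  set I' := goodIdeal R' y (algebraMap E E' f) m ϖ (algebraMap E E' s) with hI'
  set J := Ideal.map hcov.incl (RingHom.ker χ) with hJ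
  have hϖA' : ϖ ∈ R'.A := (hcov.mem_A_iff ϖ).mpr hϖA
  have htop : I' ⊔ J = ⊤ := by
    refine eq_top_of_forall_pt hR' hy _ ϖ hϖA' hϖ0
      (Ideal.mem_sup_left (cst_mem_goodIdeal R' y _ m hϖA' ((hcov.mem_O_iff s).mpr hs))) ?_
    intro χ' hχ'
    by_cases h : ∀ b ∈ RingHom.ker χ, χ' (hcov.incl b) = 0
    · obtain ⟨a', ha', hne⟩ := H χ' hχ' (hcov.comp_incl_eq hχ hχ' h)
      exact ⟨a', Ideal.mem_sup_left ha', hne⟩
    · push Not at h
      obtain ⟨b, hb, hne⟩ := h
      exact ⟨hcov.incl b, Ideal.mem_sup_right (Ideal.mem_map_of_mem _ hb), hne⟩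
  -- the averaging operator on `B'_y`
  let T : ↥(chartRing R' y) → ↥(chartRing R c) :=
    fun x => ⟨avg E e (x : E'), hcov.avg_mem_chartRing he x.2⟩
  have hTadd : ∀ x x', T (x + x') = T x + T x' := fun x x' => Subtype.ext (avg_add e _ _)
  have hT0 : T 0 = 0 := Subtype.ext (by simp [T, avg])
  have hTmul : ∀ (w : ↥(chartRing R' y)) (b : ↥(chartRing R c)), T (w * hcov.incl b) = b * T w := by
    intro w b
    refine Subtype.ext ?_
    show avg E e ((w : E') * algebraMap E E' (b : E)) = (b : E) * avg E e (w : E')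
    rw [mul_comm, avg_mul_left]
  have hTJ : ∀ j ∈ J, ∀ w, χ (T (w * j)) = 0 := by
    intro j hj
    refine Submodule.span_induction (p := fun j _ => ∀ w, χ (T (w * j)) = 0) ?_ ?_ ?_ ?_ hj
    · rintro _ ⟨b, hb, rfl⟩ w
      rw [hTmul, map_mul, (RingHom.mem_ker).mp hb, zero_mul]
    · intro w
      rw [mul_zero, hT0, map_zero]
    · intro x x' _ _ hx hx' w
      rw [mul_add, hTadd, map_add, hx, hx', add_zero]
    · intro w' x _ hx w
      rw [smul_eq_mul, ← mul_assoc]
      exact hx _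
  obtain ⟨a', ha', j, hj, h1⟩ := Submodule.mem_sup.mp (htop ▸ (Submodule.mem_top : (1 : ↥(chartRing R' y)) ∈ ⊤))
  have hT1 : T 1 = 1 := by
    refine Subtype.ext ?_
    show avg E e (1 : E') = 1
    rw [← map_one (algebraMap E E'), hcov.avg_algebraMap]
  refine ⟨T a', ?_, ?_⟩
  · obtain ⟨g, z, hg, hgO, hz, h⟩ := ha'
    refine ⟨avg E e g, avg E e z, hcov.avg_mem_ModK f m hg, hcov.avg_mem_O he hgO,
      hcov.avg_mem_O he hz, ?_⟩
    show avg E e (a' : E') * s = _
    rw [mul_comm, ← avg_mul_left, mul_comm, h, avg_add, IsScalarTower.algebraMap_apply K E E' ϖ,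
      avg_mul_left]
  · have h2 : χ (T a') + χ (T j) = 1 := by
      rw [← map_add, ← hTadd, h1, hT1, map_one]
    have h3 := hTJ j hj 1
    rw [one_mul] at h3
    rw [h3, add_zero] at h2
    rw [h2]
    exact one_ne_zero

end Fermat.Agent.GAL.KLC
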