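import Fermat.Agent.GAL.KLC.LocalGen
import Fermat.Agent.GAL.KLC.Approx

/-!
# KL-C block T2: the local claim at an étale point
-/

set_option autoImplicit false
set_option linter.unusedSectionVars false

namespace Fermat.Agent.GAL.KLC

open AlgebraicCurve Polynomial IntermediateField Module Fermat.Agent.Lib.RR Fermat.Agent.GAL.RED

variable {K E k Eb : Type} [Field K] [Field E] [Algebra K E] [Field k] [Field Eb] [Algebra k Eb]
variable [IsAlgClosed K] [CharZero K] [IsFF K E] [IsAlgClosed k]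
variable {R : RedData K E k Eb} {y : E}

/-- membership in `ModK` through orders. -/
theorem mem_ModK_iff_ord {y f g : E} {m : ℕ} [NeZero m] (hf : f ≠ 0) (hg : g ≠ 0) :
    g ∈ ModK K y f m ↔
      ∀ P : Place K E, y ∈ P.toValuationSubring → P.ord f ≤ (m : ℤ) * P.ord g := by
  sorry

/-- **Block T2 (local claim).** At an étale point `χ` the approximate root `s` is, up to a function not
vanishing at `χ`, a section of `O(-div f / m)` modulo `ϖ`.
PROOF. `φ` from `exists_local_gen`; `u := f / φ ^ m`, `red u = 1`, `P.ord u = 0` at all `P ∋ y`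
specialising to `χ`.
(1) approximate root of `u`: if `u = 1` put `t = 1`. Otherwise `exists_modulus` gives `π'`, `hR.arch` gives
`n'` with `π' ^ n' / ϖ ∈ A`; `t := aeval u (apxP K m n')`; `apx_spec`: `red t = 1`, `t ^ m - u ∈ ϖ O`.
`t = aeval u (q.map _)` with `q ∈ A[X]` (`exists_map_apxP`), of degree `≤ D`.
(2) `(φ t) ^ m - f = φ ^ m (t ^ m - u) ∈ ϖ O`, `red (φ t) = 1`; `approx_unique`: `s - φ t = ϖ z`, `z ∈ O`.
(3) `T := {P ∈ supp (divOf f) ∪ supp (divOf φ) | y ∈ P ∧ ¬ Spec χ P}`, finite.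
`exists_of_forall_not_spec` with `N` large gives `a ∈ B_y`, `χ a = 1`, `P.ord a ≥ N` on `T`.
For `N ≥ max_T (D |P.ord u| + |P.ord φ| + |P.ord f|)`: `g := a t φ` is in `O` and
`m * P.ord g ≥ P.ord f` at all `P ∋ y`: at `P` specialising to `χ`: `P.ord t ≥ 0` (`u` is a unit at `P`),
`m P.ord φ = P.ord f`; at `P ∈ T`: by the choice of `N` (`P.ord t ≥ - D |P.ord u|`); at the other `P`:
`f`, `φ`, `u` are units. (`g ≠ 0`; use `mem_ModK_iff_ord`.)
(4) `a s = g + ϖ (a z)`. -/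
theorem exists_good (hR : Ctx R) (hy : Chart R y) (m : ℕ) [NeZero m] (hm : (m : k) ≠ 0) (f : E)
    (hf : R.red f = 1) (hdiv : ∀ P : Place K E, (m : ℤ) ∣ P.ord f)
    (ϖ : K) (hϖA : ϖ ∈ R.A) (hϖ0 : ϖ ≠ 0) (s : E) (hs : R.red s = 1)
    (hsf : ∃ z ∈ R.O, s ^ m - f = algebraMap K E ϖ * z)
    (χ : ↥(chartRing R y) →+* k) (hχ : IsPt R y χ)
    (het : ∀ β ∈ R.A, R.redA β = χ (crd R y hy.mem) → Unbr K y β) :
    ∃ a ∈ goodIdeal R y f m ϖ s, χ a ≠ 0 := by
  sorry

end Fermat.Agent.GAL.KLC
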