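import Fermat.Agent.GAL.KLC.Cech

/-!
# KL-C block T4b: `ModK K c f m`, `ModK K c⁻¹ f m` form a `CechData`
(pure function field theory)
-/

set_option autoImplicit false
set_option linter.unusedSectionVars false

namespace Fermat.Agent.GAL.KLC

open AlgebraicCurve Polynomial IntermediateField Module Fermat.Agent.Lib.RR Fermat.Agent.GAL.RED

variable {K E : Type} [Field K] [Field E] [Algebra K E] [IsAlgClosed K] [CharZero K] [IsFF K E]
variable {c : E}

/-- `Reg K c` is a finitely generated `K[c]`-module.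
PROOF. `mem_Reg_iff_isIntegral`; `integralClosure (Algebra.adjoin K {c}) E` is a finite module over
`Algebra.adjoin K {c}` (`IsIntegralClosure.finite` with fraction fields `K(c)`, `E`, separable since char. 0; see
`S24/LocalCount.lean: exists_embedding_of_place` for the instances); `Algebra.adjoin K {c}` is the range of
`aeval c`. -/
theorem exists_generators_Reg (hc : Transcendental K c) [FiniteDimensional K⟮c⟯ E] :
    ∃ (r : ℕ) (u : Fin r → E), (∀ i, u i ∈ Reg K c) ∧
      ∀ g ∈ Reg K c, ∃ p : Fin r → K[X], g = ∑ i, aeval c (p i) * u i := by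
  sorry

/-- a `K[c]`-submodule of `Reg K c` is finitely generated (`K[X]` is noetherian). -/
theorem exists_generators_of_le_Reg (hc : Transcendental K c) [FiniteDimensional K⟮c⟯ E]
    (Λ : Submodule K E) (hmul : ∀ (p : K[X]), ∀ g ∈ Λ, aeval c p * g ∈ Λ)
    (hle : ∀ g ∈ Λ, g ∈ Reg K c) :
    ∃ (r : ℕ) (u : Fin r → E), (∀ i, u i ∈ Λ) ∧
      ∀ g ∈ Λ, ∃ p : Fin r → K[X], g = ∑ i, aeval c (p i) * u i := by
  sorry

/-- clearing the poles: there is a nonzero polynomial `D(c)` with `D(c) * ModK ⊆ Reg`.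
PROOF. The places `P ∋ c` with `P.ord f < 0` are finitely many (support of `divOf f`);
`D = ∏ (X - pv P c) ^ N`, `N ≥ -P.ord f`. For `g ∈ ModK`, `g ≠ 0`: `m P.ord g ≥ P.ord f`, so
`P.ord g ≥ -|P.ord f|`. -/
theorem exists_clear_ModK (f : E) (hf : f ≠ 0) (m : ℕ) [NeZero m] :
    ∃ D : K[X], D ≠ 0 ∧ ∀ g ∈ ModK K c f m, aeval c D * g ∈ Reg K c := by
  sorry

/-- shifting to the other chart.
PROOF. `g = 0` trivial. Let `P ∋ c⁻¹`. If `c ∈ P` then `c` is a unit at `P`: use `hg`. The other `P` are the poles of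
`c`: finitely many (support of `divOf c`), there `P.ord c⁻¹ ≥ 1`; take `d` with `m d ≥ P.ord f - m P.ord g` for
all of them. -/
theorem exists_shift_ModK (hc0 : c ≠ 0) (f : E) (hf : f ≠ 0) (m : ℕ) [NeZero m] (g : E)
    (hg : g ∈ ModK K c f m) : ∃ d : ℕ, c⁻¹ ^ d * g ∈ ModK K c⁻¹ f m := by
  sorry

/-- **Block T4b.** -/
theorem cechData_ModK (hc : Transcendental K c) [FiniteDimensional K⟮c⟯ E] (f : E) (hf : f ≠ 0)
    (m : ℕ) [NeZero m] : CechData K c (ModK K c f m) (ModK K c⁻¹ f m) := by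
  sorry

end Fermat.Agent.GAL.KLC
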