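import Fermat.Agent.GAL.KLC.Val
import Fermat.Agent.GAL.FF.RH.Fibre

/-!
# KL-C block U: branch points of a Kummer cover (Abhyankar's lemma by counting).
Pure function field theory over an algebraically closed field of characteristic `0`.

Tools: `GAL.FF.sum_ramificationIndex` (`∑_{w | v} e_w = [E' : E]`), `GAL.FF.restrict_surjective`,
Prelude `Place.restrict`, `Place.ord_restrict`, `Place.fiber`, `Place.mem_fiber`, the action of
`E' ≃ₐ[K] E'` on `Place K E'` (`Place.ord_smul`), `σ.restrictScalars K` for `σ : E' ≃ₐ[E] E'`.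
-/

set_option autoImplicit false
set_option linter.unusedSectionVars false

namespace Fermat.Agent.GAL.KLC

open AlgebraicCurve Polynomial IntermediateField Module Fermat.Agent.Lib.RR Fermat.Agent.GAL.RED

variable {K E E' : Type} [Field K] [Field E] [Algebra K E] [IsAlgClosed K] [CharZero K] [IsFF K E]
  [Field E'] [Algebra K E'] [Algebra E E'] [IsScalarTower K E E'] [IsFF K E']
variable {a : E} {y : E'} {e : ℕ}

/-- `σ y = ζ y` with `ζ ∈ K`, `ζ ^ e = 1`.
PROOF. `(σ y / y) ^ e = 1`; `X ^ e - 1` splits in `K`, so a root in `E'` is a constant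
(`S24.exists_algebraMap_eq_of_isAlgebraic`). -/
theorem Kum.exists_zeta (h : Kum E a y e) (σ : E' ≃ₐ[E] E') :
    ∃ ζ : K, ζ ^ e = 1 ∧ σ y = algebraMap K E' ζ * y := by
  sorry

/-- the action of `Gal(E'/E)` on places. -/
noncomputable def autSmul (σ : E' ≃ₐ[E] E') (P : Place K E') : Place K E' :=
  (σ.restrictScalars K) • P

theorem autSmul_restrict [Algebra.IsIntegral E E'] (σ : E' ≃ₐ[E] E') (P : Place K E') :
    (autSmul σ P).restrict E = P.restrict E := by
  sorry

theorem mem_autSmul_iff (σ : E' ≃ₐ[E] E') (P : Place K E') (x : E') :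
    σ x ∈ (autSmul σ P).toValuationSubring ↔ x ∈ P.toValuationSubring := by
  sorry

theorem pv_autSmul (σ : E' ≃ₐ[E] E') (P : Place K E') (x : E') :
    pv (autSmul σ P) (σ x) = pv P x := by
  sorry

/-- **Leaf U1.** over a point where `a` is a unit, the cover is unramified.
PROOF. `P'` with `0 < P'.ord (y - β)`, `P = P'.restrict E`. The `e` places `autSmul σ P'` lie in the fibre of
`P` and are pairwise distinct: `pv (autSmul σ P') y = ζ_σ⁻¹ β`-type computation (`pv_autSmul`,
`exists_zeta`), `σ ↦ ζ_σ` is injective (`h.aut_inj`), `β ≠ 0`; `Nat.card (E' ≃ₐ[E] E') = e`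
(`IsGalois.card_aut_eq_finrank`). As `∑_{w ∈ fibre} e_w = e` and `e_w ≥ 1`, all `e_w = 1`. So
`P'.ord (y ^ e - β ^ e) = P.ord (a - β ^ e) = 1` (`Place.ord_restrict`, `hβ`; positivity because the value of
`y ^ e - β ^ e` at `P'` is `0`). Finally `y ^ e - β ^ e = (y - β) * ∑_{i<e} y^i β^(e-1-i)` and the value of the
second factor at `P'` is `e β^(e-1) ≠ 0`. -/
theorem Kum.unbr_of_unbr (h : Kum E a y e) (β : K) (hβ0 : β ≠ 0) (hβ : Unbr K a (β ^ e)) :
    Unbr K y β := by
  sorry

/-- **Leaf U2 (Abhyankar).** if all ramification indices of `a` over `0` divide `e`, the cover `E' / K(y)` is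
unramified over `y = 0`.
PROOF. `P'` with `0 < P'.ord y`, `P = P'.restrict E`, `e_P = P.ord a > 0`, `e = e_P d`.
For every `w` in the fibre of `P`: `e * w.ord y = e_w * e_P` (`Place.ord_restrict`, `h.pow`), so
`e_w = d * w.ord y`, `w.ord y ≥ 1`, and `∑_{w} w.ord y = e / d = e_P` (`sum_ramificationIndex`).
It suffices to show that the fibre has at least `e_P` elements. The orbit of `P'` under `G = Gal(E'/E)` is
contained in the fibre and has `e / |Stab|` elements (`MulAction.card_orbit_mul_card_stabilizer_eq_card_group`,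
or a direct counting argument), so it suffices to show `|Stab| ≤ d`. Let `τ ∈ E` with `P.ord τ = 1` and
`w₀ = y ^ d / τ`: `P'.ord w₀ = d * P'.ord y - e_{P'} = 0`, so `pv P' w₀ ≠ 0`. For `σ ∈ Stab`:
`σ w₀ = ζ_σ ^ d w₀` and `pv P' (σ w₀) = pv P' w₀` (`pv_autSmul`), so `ζ_σ ^ d = 1`; `σ ↦ ζ_σ` is injective and
`X ^ d - 1` has at most `d` roots. -/
theorem Kum.unbr_zero (h : Kum E a y e)
    (hram : ∀ P : Place K E, 0 < P.ord a → P.ord a ∣ (e : ℤ)) : Unbr K y 0 := by
  sorry

omit [IsAlgClosed K] [CharZero K] [IsFF K E] in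
/-- change of coordinate `y ↦ 1/y` away from `0, ∞`.
(`y⁻¹ - β = -β y⁻¹ (y - β⁻¹)`; at a zero of `y⁻¹ - β` the factor `β y⁻¹` is a unit.) -/
theorem unbr_inv {z : E} {β : K} (hβ0 : β ≠ 0) (hβ : Unbr K z β⁻¹) : Unbr K z⁻¹ β := by
  sorry

omit [IsAlgClosed K] [CharZero K] [IsFF K E] in
/-- translation of the coordinate. -/
theorem unbr_sub_const {z : E} {β γ : K} (hβ : Unbr K z (β + γ)) :
    Unbr K (z - algebraMap K E γ) β := by
  intro P hP
  have : z - algebraMap K E γ - algebraMap K E β = z - algebraMap K E (β + γ) := by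
    rw [map_add]; ring
  rw [this] at hP ⊢
  exact hβ P hP

end Fermat.Agent.GAL.KLC
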