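import Fermat.Agent.GAL.KLC.CoverBasic
import Fermat.Agent.GAL.KLC.Local
import Fermat.Agent.GAL.KLC.Descent
import Fermat.Agent.GAL.KLC.Unbr
import Fermat.Agent.GAL.KLC.ModFG

/-!
# KL-C: the approximate roots are approximate sections on both charts (assembly)
-/

set_option autoImplicit false
set_option linter.unusedSectionVars false

namespace Fermat.Agent.GAL.KLC

open AlgebraicCurve Polynomial IntermediateField Module Fermat.Agent.Lib.RR Fermat.Agent.GAL.RED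

variable {K E k Eb : Type} [Field K] [Field E] [Algebra K E] [Field k] [Field Eb] [Algebra k Eb]
variable [IsAlgClosed K] [CharZero K] [IsFF K E] [IsAlgClosed k]
variable {R : RedData K E k Eb} {c : E}

/-- tame ramification data of `E / K(c)`: branch points `0, γ, ∞`, indices dividing `e`. -/
structure Tame (K : Type) {E : Type} [Field K] [Field E] [Algebra K E] (c : E) (γ : K) (e : ℕ) :
    Prop where
  unbr : ∀ β : K, β ≠ 0 → β ≠ γ → Unbr K c β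
  ram0 : ∀ P : Place K E, 0 < P.ord c → P.ord c ∣ (e : ℤ)
  ramγ : ∀ P : Place K E, 0 < P.ord (c - algebraMap K E γ) → P.ord (c - algebraMap K E γ) ∣ (e : ℤ)
  ramInf : ∀ P : Place K E, 0 < P.ord c⁻¹ → P.ord c⁻¹ ∣ (e : ℤ)

section OneCover

variable {E' Eb' : Type} [Field E'] [Algebra K E'] [Algebra E E'] [IsScalarTower K E E']
  [Field Eb'] [Algebra k Eb'] [IsFF K E']
variable {R' : RedData K E' k Eb'} {γ : K} {y : E'} {e : ℕ}

/-- relation between the coordinates of a point of the cover and of its image. -/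
theorem Cover.pt_pow (hcov : Cover R R' c γ y e) (hc : c ∈ R.O) (hy : y ∈ R'.O) (hγ : γ ∈ R.A)
    {χ : ↥(chartRing R c) →+* k} {χ' : ↥(chartRing R' y) →+* k} (hχ' : IsPt R' y χ')
    (h : χ'.comp hcov.incl = χ) :
    χ' (crd R' y hy) ^ e = χ (crd R c hc) - R.redA γ := by
  have h1 : crd R' y hy ^ e = hcov.incl (crd R c hc) - cst R' y γ ((hcov.mem_A_iff γ).mpr hγ) :=
    Subtype.ext hcov.pow
  rw [← map_pow, h1, map_sub, hχ', hcov.redA_eq, ← h]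
  rfl

/-- the local claim at a point all of whose preimages in a cover are étale. -/
theorem exists_good_of_cover (hR' : Ctx R') (hy : Chart R' y) (hcov : Cover R R' c γ y e)
    (he : (e : k) ≠ 0) (m : ℕ) [NeZero m] (hm : (m : k) ≠ 0) (f : E)
    (hf : R.red f = 1) (hdiv : ∀ P : Place K E, (m : ℤ) ∣ P.ord f)
    (ϖ : K) (hϖA : ϖ ∈ R.A) (hϖ0 : ϖ ≠ 0) (s : E) (hs : R.red s = 1)
    (hsf : ∃ z ∈ R.O, s ^ m - f = algebraMap K E ϖ * z)
    (χ : ↥(chartRing R c) →+* k) (hχ : IsPt R c χ)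
    (het : ∀ χ' : ↥(chartRing R' y) →+* k, IsPt R' y χ' → χ'.comp hcov.incl = χ →
      ∀ β ∈ R'.A, R'.redA β = χ' (crd R' y hy.mem) → Unbr K y β) :
    ∃ a ∈ goodIdeal R c f m ϖ s, χ a ≠ 0 := by
  have hsO : s ∈ R.O := R.mem_of_red_ne_zero (by rw [hs]; exact one_ne_zero)
  have := hcov.finiteDimensional
  refine descent hR' hy hcov he m f s hsO ϖ hϖA hϖ0 χ hχ fun χ' hχ' hcomp => ?_
  refine exists_good hR' hy m hm _ (hcov.red_eq_one hf) (dvd_ord_algebraMap m f hdiv) ϖ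
    ((hcov.mem_A_iff ϖ).mpr hϖA) hϖ0 _ (hcov.red_eq_one hs) ?_ χ' hχ' (het χ' hχ' hcomp)
  obtain ⟨z, hz, h⟩ := hsf
  refine ⟨algebraMap E E' z, (hcov.mem_O_iff z).mpr hz, ?_⟩
  rw [← map_pow, ← map_sub, h, map_mul, ← IsScalarTower.algebraMap_apply]

end OneCover

variable {E₁ Eb₁ : Type} [Field E₁] [Algebra K E₁] [Algebra E E₁] [IsScalarTower K E E₁]
  [Field Eb₁] [Algebra k Eb₁] [IsFF K E₁]
variable {E₂ Eb₂ : Type} [Field E₂] [Algebra K E₂] [Algebra E E₂] [IsScalarTower K E E₂]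
  [Field Eb₂] [Algebra k Eb₂] [IsFF K E₂]
variable {R₁ : RedData K E₁ k Eb₁} {R₂ : RedData K E₂ k Eb₂} {γ : K} {y₁ : E₁} {y₂ : E₂} {e : ℕ}

/-- **Chart 0.** -/
theorem chart0 (hR : Ctx R) (hc : Chart R c) (hγ : γ ∈ R.A) (hγ0 : R.redA γ ≠ 0)
    (ht : Tame K c γ e) (he : (e : k) ≠ 0)
    (hR₁ : Ctx R₁) (hy₁ : Chart R₁ y₁) (hcov₁ : Cover R R₁ c 0 y₁ e)
    (hR₂ : Ctx R₂) (hy₂ : Chart R₂ y₂) (hcov₂ : Cover R R₂ c γ y₂ e)
    (m : ℕ) [NeZero m] (hm : (m : k) ≠ 0) (f : E)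
    (hf : R.red f = 1) (hdiv : ∀ P : Place K E, (m : ℤ) ∣ P.ord f)
    (ϖ : K) (hϖA : ϖ ∈ R.A) (hϖ0 : ϖ ≠ 0) (s : E) (hs : R.red s = 1)
    (hsf : ∃ z ∈ R.O, s ^ m - f = algebraMap K E ϖ * z) :
    goodIdeal R c f m ϖ s = ⊤ := by
  have hsO : s ∈ R.O := R.mem_of_red_ne_zero (by rw [hs]; exact one_ne_zero)
  have he0 : e ≠ 0 := by rintro rfl; simp at he
  refine eq_top_of_forall_pt hR hc _ ϖ hϖA hϖ0 (cst_mem_goodIdeal R c f m hϖA hsO) fun χ hχ => ?_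
  by_cases hcase : χ (crd R c hc.mem) = R.redA γ
  · -- the point `c = γ`: second cover
    refine exists_good_of_cover hR₂ hy₂ hcov₂ he m hm f hf hdiv ϖ hϖA hϖ0 s hs hsf χ hχ ?_
    intro χ' hχ' hcomp β hβA hβ
    have h1 := hcov₂.pt_pow hc.mem hy₂.mem hγ hχ' hcomp
    rw [hcase, sub_self, ← hβ, hcov₂.redA_eq] at h1
    have hβr : R.redA β = 0 := pow_eq_zero_iff he0 |>.mp h1
    have hβA' : β ∈ R.A := (hcov₂.mem_A_iff β).mp hβA
    by_cases hβ0 : β = 0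
    · subst hβ0
      exact hcov₂.kum.unbr_zero ht.ramγ
    · refine hcov₂.kum.unbr_of_unbr β hβ0 (unbr_sub_const (ht.unbr _ ?_ ?_))
      · intro h0
        have h2 : R.redA (β ^ e + γ) = R.redA γ := by
          rw [R.redA_add (pow_mem hβA' e) hγ, R.redA_pow, hβr, zero_pow he0, zero_add]
        rw [h0, R.redA_zero] at h2
        exact hγ0 h2.symm
      · intro h0
        exact hβ0 (pow_eq_zero_iff he0 |>.mp (by simpa using h0))
  · -- the other points: first cover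
    refine exists_good_of_cover hR₁ hy₁ hcov₁ he m hm f hf hdiv ϖ hϖA hϖ0 s hs hsf χ hχ ?_
    intro χ' hχ' hcomp β hβA hβ
    have h1 := hcov₁.pt_pow hc.mem hy₁.mem R.A.zero_mem hχ' hcomp
    rw [R.redA_zero, sub_zero, ← hβ, hcov₁.redA_eq] at h1
    have hk := hcov₁.kum
    rw [map_zero, sub_zero] at hk
    by_cases hβ0 : β = 0
    · subst hβ0
      exact hk.unbr_zero ht.ram0
    · refine hk.unbr_of_unbr β hβ0 (ht.unbr _ (pow_ne_zero e hβ0) ?_)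
      intro h0
      apply hcase
      rw [← h1, ← R.redA_pow, h0]

/-- **Chart 1.** -/
theorem chart1 (hR : Ctx R) (hc : Chart R c) (hγ : γ ∈ R.A)
    (ht : Tame K c γ e) (he : (e : k) ≠ 0)
    (hR₁ : Ctx R₁) (hy₁ : Chart R₁ y₁) (hcov₁ : Cover R R₁ c 0 y₁ e)
    (m : ℕ) [NeZero m] (hm : (m : k) ≠ 0) (f : E)
    (hf : R.red f = 1) (hdiv : ∀ P : Place K E, (m : ℤ) ∣ P.ord f)
    (ϖ : K) (hϖA : ϖ ∈ R.A) (hϖ0 : ϖ ≠ 0) (s : E) (hs : R.red s = 1)
    (hsf : ∃ z ∈ R.O, s ^ m - f = algebraMap K E ϖ * z)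
    (h0 : goodIdeal R c f m ϖ s = ⊤) :
    goodIdeal R c⁻¹ f m ϖ s = ⊤ := by
  have hsO : s ∈ R.O := R.mem_of_red_ne_zero (by rw [hs]; exact one_ne_zero)
  have he0 : e ≠ 0 := by rintro rfl; simp at he
  have hf0 : f ≠ 0 := R.ne_zero_of_red_ne_zero (by rw [hf]; exact one_ne_zero)
  have hc0 : c ≠ 0 := R.ne_zero_of_red_ne_zero hc.red_ne_zero
  have hci := hc.inv
  -- transfer from chart 0
  obtain ⟨g, z, hg, hgO, hz, hgz⟩ : (1 : ↥(chartRing R c)) ∈ goodIdeal R c f m ϖ s := by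
    rw [h0]; exact Submodule.mem_top
  rw [Subring.coe_one, one_mul] at hgz
  obtain ⟨d, hd⟩ := exists_shift_ModK hc0 f hf0 m g hg
  have hpow : crd R c⁻¹ hci.mem ^ d ∈ goodIdeal R c⁻¹ f m ϖ s := by
    refine ⟨c⁻¹ ^ d * g, c⁻¹ ^ d * z, hd, mul_mem (pow_mem hci.mem d) hgO,
      mul_mem (pow_mem hci.mem d) hz, ?_⟩
    show c⁻¹ ^ d * s = _
    rw [hgz]; ring
  refine eq_top_of_forall_pt hR hci _ ϖ hϖA hϖ0 (cst_mem_goodIdeal R c⁻¹ f m hϖA hsO)
    fun χ hχ => ?_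
  by_cases hcase : χ (crd R c⁻¹ hci.mem) = 0
  · refine exists_good_of_cover hR₁ hy₁.inv hcov₁.inv he m hm f hf hdiv ϖ hϖA hϖ0 s hs hsf χ hχ ?_
    intro χ' hχ' hcomp β hβA hβ
    have h1 := hcov₁.inv.pt_pow hci.mem hy₁.inv.mem R.A.zero_mem hχ' hcomp
    rw [hcase, R.redA_zero, sub_zero, ← hβ, hcov₁.redA_eq] at h1
    have hβr : R.redA β = 0 := pow_eq_zero_iff he0 |>.mp h1
    have hβA' : β ∈ R.A := (hcov₁.mem_A_iff β).mp hβA
    have hk := hcov₁.kum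
    rw [map_zero, sub_zero] at hk
    by_cases hβ0 : β = 0
    · subst hβ0
      exact hk.inv.unbr_zero ht.ramInf
    · refine unbr_inv hβ0 (hk.unbr_of_unbr β⁻¹ (inv_ne_zero hβ0)
        (ht.unbr _ (pow_ne_zero e (inv_ne_zero hβ0)) ?_))
      intro h2
      have h3 : β ^ e * γ = 1 := by
        rw [← h2, ← mul_pow, mul_inv_cancel₀ hβ0, one_pow]
      have h4 : R.redA (β ^ e * γ) = 0 := by
        rw [R.redA_mul (pow_mem hβA' e) hγ, R.redA_pow, hβr, zero_pow he0, zero_mul]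
      rw [h3, R.redA_one] at h4
      exact one_ne_zero h4
  · exact ⟨_, hpow, by rw [map_pow]; exact pow_ne_zero d hcase⟩

end Fermat.Agent.GAL.KLC
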