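import Fermat.Agent.GAL.KLC.Point

/-!
# KL-C: small lemmas on charts and covers
-/

set_option autoImplicit false
set_option linter.unusedSectionVars false

namespace Fermat.Agent.GAL.KLC

open AlgebraicCurve Polynomial IntermediateField Module Fermat.Agent.Lib.RR Fermat.Agent.GAL.RED

variable {K E k Eb : Type} [Field K] [Field E] [Algebra K E] [Field k] [Field Eb] [Algebra k Eb]
variable {R : RedData K E k Eb}

/-- `1/y` is a chart. (`S24.adjoin_inv_eq : k⟮x⁻¹⟯ = k⟮x⟯`, `S24.transcendental_inv`, `R.red_inv`; rewrite along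
the equalities of intermediate fields, e.g. with `subst`/`▸` after generalising.) -/
theorem Chart.inv {y : E} (h : Chart R y) : Chart R y⁻¹ := by
  sorry

/-- `y - β` is a chart for `β ∈ A`. (`S24.adjoin_sub_const_eq`, `S24.transcendental_sub_const`.) -/
theorem Chart.sub_const {y : E} (h : Chart R y) {β : K} (hβ : β ∈ R.A) :
    Chart R (y - algebraMap K E β) := by
  sorry

variable {E' Eb' : Type} [Field E'] [Algebra K E'] [Algebra E E'] [IsScalarTower K E E']
  [Field Eb'] [Algebra k Eb']
variable {R' : RedData K E' k Eb'} {c : E} {γ : K} {y : E'} {e : ℕ}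

/-- `red x = 0` is detected in the cover.
(`x ∈ O` and (`x = 0` or `x⁻¹ ∉ O`): `R.red_ne_zero_iff`, `hcov.mem_O_iff`, `map_inv₀`.) -/
theorem Cover.red_eq_zero (hcov : Cover R R' c γ y e) {x : E} (hx : x ∈ R.O) (h : R.red x = 0) :
    R'.red (algebraMap E E' x) = 0 := by
  sorry

theorem Cover.red_eq_one (hcov : Cover R R' c γ y e) {x : E} (h : R.red x = 1) :
    R'.red (algebraMap E E' x) = 1 := by
  have hx : x ∈ R.O := R.mem_of_red_ne_zero (by rw [h]; exact one_ne_zero)
  have h1 : R.red (x - 1) = 0 := by rw [R.red_sub hx R.O.one_mem, h, R.red_one, sub_self]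
  have h2 := hcov.red_eq_zero (sub_mem hx R.O.one_mem) h1
  rw [map_sub, map_one, R'.red_sub ((hcov.mem_O_iff x).mpr hx) R'.O.one_mem, R'.red_one,
    sub_eq_zero] at h2
  exact h2

/-- divisibility of the divisor is preserved by pull back. (`Place.ord_restrict`.) -/
theorem dvd_ord_algebraMap [Algebra.IsIntegral E E'] (m : ℕ) (f : E)
    (h : ∀ P : Place K E, (m : ℤ) ∣ P.ord f) (P' : Place K E') :
    (m : ℤ) ∣ P'.ord (algebraMap E E' f) := by
  rw [P'.ord_restrict (F := E) f]
  exact Dvd.dvd.mul_left (h _) _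

end Fermat.Agent.GAL.KLC
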