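import Fermat.Agent.GAL.RED.Lift
import Fermat.Agent.GAL.RED.CurveBasic
import Fermat.Agent.S24.Differential
import Fermat.Prelude.Def_AlgebraicCurve_DivisorPushPull

/-!
# KL-C (genus free proof of INJ): definitions

`K` algebraically closed of characteristic `0`, `E / K` a function field (`Lib.RR.IsFF`),
`R : RED.RedData K E k Eb` a "Gauss valuation" on `E` (valuation rings `R.A ⊆ K`, `R.O ⊆ E`,
total reduction maps `R.redA : K → k`, `R.red : E → Eb`, zero outside `A`, `O`).

* `Ctx R`          : equal value groups (`scale`) + `A` has rank one (`arch`).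
* `Chart R y`      : `y` is a coordinate with full separable residue degree.
* `pv P x : K`     : the value of `x` at the place `P` (`0` if `x` has a pole at `P`).
* `Unbr K y β`     : `E / K(y)` is unramified over `y = β`.
* `Reg K y`        : functions regular at all places where `y` is regular (`= B_{y,K}`).
* `chartRing R y`  : `B_y = Reg K y ∩ O`.
* `ModK K y f m`   : `{g | g ^ m / f regular where y is regular}` (`= M_{y,K}`, sections of `O(-div f / m)`).
* `goodIdeal R y f m ϖ s` : `{a ∈ B_y | a s ∈ (ModK ∩ O) + ϖ O}`.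
* `IsPt R y χ`     : `χ : B_y →+* k` is a point of the special fibre.
* `Cover R R' c γ y e` : `E' = E(y)`, `y ^ e = c - γ`, Kummer cover compatible with the valuations.
-/

set_option autoImplicit false
set_option linter.unusedSectionVars false

namespace Fermat.Agent.GAL.KLC

open AlgebraicCurve Polynomial IntermediateField Fermat.Agent.Lib.RR Fermat.Agent.GAL.RED

noncomputable section

variable {K E k Eb : Type} [Field K] [Field E] [Algebra K E] [Field k] [Field Eb] [Algebra k Eb]

/-- equal value groups and rank one. -/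
structure Ctx (R : RedData K E k Eb) : Prop where
  scale : ∀ f : E, f ≠ 0 → ∃ c : K, c ≠ 0 ∧ R.red (algebraMap K E c * f) ≠ 0
  arch : ∀ a b : K, a ∈ R.A → R.redA a = 0 → b ≠ 0 → ∃ n : ℕ, a ^ n / b ∈ R.A

/-- `y` is a coordinate with full separable residue degree. -/
structure Chart (R : RedData K E k Eb) (y : E) : Prop where
  trans : Transcendental k (R.red y)
  fin : FiniteDimensional K⟮y⟯ E
  finb : FiniteDimensional k⟮R.red y⟯ Eb
  sep : Algebra.IsSeparable k⟮R.red y⟯ Eb
  deg : Module.finrank K⟮y⟯ E = Module.finrank k⟮R.red y⟯ Eb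

theorem Chart.red_ne_zero {R : RedData K E k Eb} {y : E} (h : Chart R y) : R.red y ≠ 0 := by
  intro h0
  exact h.trans (h0 ▸ isAlgebraic_zero)

theorem Chart.mem {R : RedData K E k Eb} {y : E} (h : Chart R y) : y ∈ R.O :=
  R.mem_of_red_ne_zero h.red_ne_zero

section Places

variable [IsAlgClosed K] [IsFF K E]

/-- evaluation at a place, on its valuation ring. -/
def evHom (P : Place K E) : ↥P.toValuationSubring →+* K :=
  (S24.Differential.residueAlgHom P (curveBasic_residue_bijective P).2 :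
    ↥P.toValuationSubring →ₐ[K] K)

theorem evHom_surjective (P : Place K E) : Function.Surjective (evHom P) := by
  intro a
  refine ⟨algebraMap K _ a, ?_⟩
  exact (S24.Differential.residueAlgHom P (curveBasic_residue_bijective P).2).commutes a

/-- the value of `x` at `P` (`0` if `x` has a pole). -/
def pv (P : Place K E) (x : E) : K := GRed.gred P.toValuationSubring (evHom P) x

theorem pv_algebraMap (P : Place K E) (a : K) : pv P (algebraMap K E a) = a := by
  rw [pv, GRed.of_mem _ _ (P.algebraMap_mem' a)]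
  exact (S24.Differential.residueAlgHom P (curveBasic_residue_bijective P).2).commutes a

end Places

/-- `E / K(y)` is unramified over `y = β`. -/
def Unbr (K : Type) {E : Type} [Field K] [Field E] [Algebra K E] (y : E) (β : K) : Prop :=
  ∀ P : Place K E, 0 < P.ord (y - algebraMap K E β) → P.ord (y - algebraMap K E β) = 1

/-- functions regular wherever `y` is regular. -/
def Reg (K : Type) {E : Type} [Field K] [Field E] [Algebra K E] (y : E) : Subring E where
  carrier := {x | ∀ P : Place K E, y ∈ P.toValuationSubring → x ∈ P.toValuationSubring}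
  mul_mem' ha hb P hP := mul_mem (ha P hP) (hb P hP)
  one_mem' _ _ := one_mem _
  add_mem' ha hb P hP := add_mem (ha P hP) (hb P hP)
  zero_mem' _ _ := zero_mem _
  neg_mem' ha P hP := neg_mem (ha P hP)

theorem mem_Reg {y x : E} :
    x ∈ Reg K y ↔ ∀ P : Place K E, y ∈ P.toValuationSubring → x ∈ P.toValuationSubring := Iff.rfl

theorem self_mem_Reg (y : E) : y ∈ Reg K y := fun _ h => h

theorem algebraMap_mem_Reg (y : E) (a : K) : algebraMap K E a ∈ Reg K y :=
  fun P _ => P.algebraMap_mem' a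

/-- `B_y`. -/
def chartRing (R : RedData K E k Eb) (y : E) : Subring E := R.O.toSubring ⊓ Reg K y

theorem mem_chartRing {R : RedData K E k Eb} {y x : E} :
    x ∈ chartRing R y ↔ x ∈ R.O ∧ x ∈ Reg K y := Iff.rfl

theorem algebraMap_mem_chartRing (R : RedData K E k Eb) (y : E) {a : K} (ha : a ∈ R.A) :
    algebraMap K E a ∈ chartRing R y :=
  ⟨R.algebraMap_mem a ha, algebraMap_mem_Reg y a⟩

/-- constants of `A` in `B_y`. -/
def cst (R : RedData K E k Eb) (y : E) (a : K) (ha : a ∈ R.A) : ↥(chartRing R y) :=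
  ⟨algebraMap K E a, algebraMap_mem_chartRing R y ha⟩

/-- the coordinate as an element of `B_y`. -/
def crd (R : RedData K E k Eb) (y : E) (hy : y ∈ R.O) : ↥(chartRing R y) :=
  ⟨y, hy, self_mem_Reg y⟩

/-- `M_{y,K}`: sections of `O(-div f / m)` over the chart `y ≠ ∞`. -/
def ModK (K : Type) {E : Type} [Field K] [Field E] [Algebra K E] (y f : E) (m : ℕ) [NeZero m] :
    Submodule K E where
  carrier := {g | ∀ P : Place K E, y ∈ P.toValuationSubring →
    g ^ m * f⁻¹ ∈ P.toValuationSubring}
  add_mem' := by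
    intro a b ha hb P hP
    have ha' := ha P hP
    have hb' := hb P hP
    rw [← ValuationSubring.valuation_le_one_iff, map_mul, map_pow] at ha' hb' ⊢
    set v := P.toValuationSubring.valuation
    rcases le_total (v a) (v b) with h | h
    · refine le_trans ?_ hb'
      gcongr
      exact (v.map_add a b).trans (max_le h le_rfl)
    · refine le_trans ?_ ha'
      gcongr
      exact (v.map_add a b).trans (max_le le_rfl h)
  zero_mem' := by
    intro P _
    simp [zero_pow (NeZero.ne m)]
  smul_mem' := by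
    intro c g hg P hP
    have : (c • g) ^ m * f⁻¹ = algebraMap K E c ^ m * (g ^ m * f⁻¹) := by
      rw [Algebra.smul_def]; ring
    rw [this]
    exact mul_mem (pow_mem (P.algebraMap_mem' c) m) (hg P hP)

theorem mem_ModK {y f g : E} {m : ℕ} [NeZero m] : g ∈ ModK K y f m ↔
    ∀ P : Place K E, y ∈ P.toValuationSubring → g ^ m * f⁻¹ ∈ P.toValuationSubring := Iff.rfl

theorem mul_mem_ModK {y f g b : E} {m : ℕ} [NeZero m] (hb : b ∈ Reg K y) (hg : g ∈ ModK K y f m) :
    b * g ∈ ModK K y f m := by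
  intro P hP
  have : (b * g) ^ m * f⁻¹ = b ^ m * (g ^ m * f⁻¹) := by ring
  rw [this]
  exact mul_mem (pow_mem (hb P hP) m) (hg P hP)

/-- `{a ∈ B_y | a s ∈ (M_y ∩ O) + ϖ O}`. -/
def goodIdeal (R : RedData K E k Eb) (y f : E) (m : ℕ) [NeZero m] (ϖ : K) (s : E) :
    Ideal ↥(chartRing R y) where
  carrier := {a | ∃ g z : E, g ∈ ModK K y f m ∧ g ∈ R.O ∧ z ∈ R.O ∧
    (a : E) * s = g + algebraMap K E ϖ * z}
  add_mem' := by
    rintro a b ⟨g, z, hg, hgO, hz, h⟩ ⟨g', z', hg', hgO', hz', h'⟩
    refine ⟨g + g', z + z', add_mem hg hg', add_mem hgO hgO', add_mem hz hz', ?_⟩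
    rw [Subring.coe_add, add_mul, h, h']; ring
  zero_mem' := ⟨0, 0, zero_mem _, zero_mem _, zero_mem _, by simp⟩
  smul_mem' := by
    rintro c a ⟨g, z, hg, hgO, hz, h⟩
    refine ⟨c * g, c * z, mul_mem_ModK c.2.2 hg, mul_mem c.2.1 hgO, mul_mem c.2.1 hz, ?_⟩
    rw [smul_eq_mul, Subring.coe_mul, mul_assoc, h]; ring

theorem mem_goodIdeal {R : RedData K E k Eb} {y f : E} {m : ℕ} [NeZero m] {ϖ : K} {s : E}
    {a : ↥(chartRing R y)} : a ∈ goodIdeal R y f m ϖ s ↔
      ∃ g z : E, g ∈ ModK K y f m ∧ g ∈ R.O ∧ z ∈ R.O ∧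
        (a : E) * s = g + algebraMap K E ϖ * z := Iff.rfl

/-- `ϖ ∈ goodIdeal` as soon as `s ∈ O`. -/
theorem cst_mem_goodIdeal (R : RedData K E k Eb) (y f : E) (m : ℕ) [NeZero m] {ϖ : K}
    (hϖ : ϖ ∈ R.A) {s : E} (hs : s ∈ R.O) : cst R y ϖ hϖ ∈ goodIdeal R y f m ϖ s :=
  ⟨0, s, zero_mem _, zero_mem _, hs, by simp [cst]⟩

/-- `χ` is a `k`-point of the special fibre of `Spec B_y`. -/
def IsPt (R : RedData K E k Eb) (y : E) (χ : ↥(chartRing R y) →+* k) : Prop :=
  ∀ (a : K) (ha : a ∈ R.A), χ (cst R y a ha) = R.redA a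

section Cover

variable {E' Eb' : Type} [Field E'] [Algebra K E'] [Algebra E E'] [IsScalarTower K E E']
  [Field Eb'] [Algebra k Eb']

/-- A Kummer extension `E' = E(y)`, `y ^ e = a`, of degree `e`. -/
structure Kum (E : Type) {E' : Type} [Field E] [Field E'] [Algebra E E'] (a : E) (y : E') (e : ℕ) :
    Prop where
  pow : y ^ e = algebraMap E E' a
  ne_zero : y ≠ 0
  e_pos : 0 < e
  galois : IsGalois E E'
  finrank : Module.finrank E E' = e
  aut_inj : ∀ σ : E' ≃ₐ[E] E', σ y = y → σ = 1

theorem Kum.inv {E E' : Type} [Field E] [Field E'] [Algebra E E'] {a : E} {y : E'} {e : ℕ}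
    (h : Kum E a y e) : Kum E a⁻¹ y⁻¹ e where
  pow := by rw [inv_pow, h.pow, map_inv₀]
  ne_zero := inv_ne_zero h.ne_zero
  e_pos := h.e_pos
  galois := h.galois
  finrank := h.finrank
  aut_inj σ hσ := h.aut_inj σ (by rw [map_inv₀] at hσ; exact inv_injective hσ)

/-- A Kummer cover `E' = E(y)`, `y ^ e = c - γ`, with compatible Gauss valuations. -/
structure Cover (R : RedData K E k Eb) (R' : RedData K E' k Eb') (c : E) (γ : K) (y : E')
    (e : ℕ) : Prop where
  pow : y ^ e = algebraMap E E' c - algebraMap K E' γ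
  ne_zero : y ≠ 0
  e_pos : 0 < e
  mem_A_iff : ∀ a : K, a ∈ R'.A ↔ a ∈ R.A
  redA_eq : ∀ a : K, R'.redA a = R.redA a
  mem_O_iff : ∀ x : E, algebraMap E E' x ∈ R'.O ↔ x ∈ R.O
  galois : IsGalois E E'
  finrank : Module.finrank E E' = e
  aut_inj : ∀ σ : E' ≃ₐ[E] E', σ y = y → σ = 1
  aut_mem : ∀ (σ : E' ≃ₐ[E] E') (x : E'), x ∈ R'.O → σ x ∈ R'.O

variable {R : RedData K E k Eb} {R' : RedData K E' k Eb'} {c : E} {γ : K} {y : E'} {e : ℕ}

theorem Cover.kum (h : Cover R R' c γ y e) : Kum E (c - algebraMap K E γ) y e where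
  pow := by rw [h.pow, map_sub, ← IsScalarTower.algebraMap_apply]
  ne_zero := h.ne_zero
  e_pos := h.e_pos
  galois := h.galois
  finrank := h.finrank
  aut_inj := h.aut_inj

/-- the same cover seen from infinity. -/
theorem Cover.inv (h : Cover R R' c 0 y e) : Cover R R' c⁻¹ 0 y⁻¹ e where
  pow := by rw [inv_pow, h.pow, map_zero, sub_zero, sub_zero, map_inv₀]
  ne_zero := inv_ne_zero h.ne_zero
  e_pos := h.e_pos
  mem_A_iff := h.mem_A_iff
  redA_eq := h.redA_eq
  mem_O_iff := h.mem_O_iff
  galois := h.galois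
  finrank := h.finrank
  aut_inj σ hσ := h.aut_inj σ (by rw [map_inv₀] at hσ; exact inv_injective hσ)
  aut_mem := h.aut_mem

theorem Cover.finiteDimensional (h : Cover R R' c γ y e) : FiniteDimensional E E' :=
  Module.finite_of_finrank_pos (by rw [h.finrank]; exact h.e_pos)

theorem Cover.map_mem_Reg (h : Cover R R' c γ y e) {b : E} (hb : b ∈ Reg K c) :
    algebraMap E E' b ∈ Reg K y := by
  intro P hP
  have := h.finiteDimensional
  have hc : algebraMap E E' c ∈ P.toValuationSubring := by
    have : algebraMap E E' c = y ^ e + algebraMap K E' γ := by rw [h.pow]; ring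
    rw [this]
    exact add_mem (pow_mem hP e) (P.algebraMap_mem' γ)
  exact hb (P.restrict E) hc

theorem Cover.map_mem (h : Cover R R' c γ y e) {b : E} (hb : b ∈ chartRing R c) :
    algebraMap E E' b ∈ chartRing R' y :=
  ⟨(h.mem_O_iff b).mpr hb.1, h.map_mem_Reg hb.2⟩

/-- `B_c → B'_y`. -/
def Cover.incl (h : Cover R R' c γ y e) : ↥(chartRing R c) →+* ↥(chartRing R' y) :=
  ((algebraMap E E').comp (chartRing R c).subtype).codRestrict (chartRing R' y)
    (fun b => h.map_mem b.2)

@[simp] theorem Cover.coe_incl (h : Cover R R' c γ y e) (b : ↥(chartRing R c)) :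
    ((h.incl b : ↥(chartRing R' y)) : E') = algebraMap E E' (b : E) := rfl

end Cover

end

end Fermat.Agent.GAL.KLC
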