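import Fermat.Agent.GAL.KLC.Integral

/-!
# KL-C leaf T1.3: the trace on an unramified fibre (pure function field theory, no valuation on `K`)
-/

set_option autoImplicit false
set_option linter.unusedSectionVars false

namespace Fermat.Agent.GAL.KLC

open AlgebraicCurve Polynomial IntermediateField Module Fermat.Agent.Lib.RR Fermat.Agent.GAL.RED

variable {K E : Type} [Field K] [Field E] [Algebra K E] [IsAlgClosed K] [CharZero K] [IsFF K E]
variable {y : E}

/-- **Leaf T1.3a.** An unramified fibre has exactly `n = [E : K(y)]` points.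
PROOF. `S24.sum_ord_sub_const` (`S24/RH.lean`) / `S24.exists_finset_zeros`: there is a finset `Z` of places,
`P ∈ Z ↔ 0 < P.ord (y - β)`, with `∑_{P ∈ Z} P.ord (y - β) = n`; all orders are `1`; so `Z.card = n`;
enumerate `Z` (`Finset.equivFinOfCardEq`). `0 < P.ord (y - β) ↔ y ∈ P ∧ pv P y = β` by `pv_eq_iff`,
`mem_and_pv_eq_of_ord_pos` (`y ≠ β` as `y` is transcendental). -/
theorem exists_enum_fibre (hy : Transcendental K y) [FiniteDimensional K⟮y⟯ E] (β : K)
    (hβ : Unbr K y β) :
    ∃ Ps : Fin (finrank K⟮y⟯ E) → Place K E, Function.Injective Ps ∧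
      ∀ P : Place K E, (y ∈ P.toValuationSubring ∧ pv P y = β) ↔ ∃ i, Ps i = P := by
  sorry

/-- **Leaf T1.3b (trace formula).** On an unramified fibre, `Tr(x)(β) = ∑_{P | β} x(P)`.
PROOF, route 1 (expansions). For each `i`, `t = y - β` is a uniformiser at `Ps i`; `S24.Differential.datum`
(`S24/Differential.lean`, `S24/Expansion.lean`) gives an injective `K`-algebra hom
`σ_i : V_{Ps i} → K⟦X⟧` with `σ_i t = X`, `constantCoeff (σ_i x) = pv (Ps i) x`; extend to
`E → LaurentSeries K` (`IsFractionRing.lift` / `IsLocalization`). The `σ_i` are `n` pairwise distinct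
(their valuation rings `σ_i⁻¹(K⟦X⟧) = V_{Ps i}` are distinct) ring homs agreeing on `K(y)`, so
`σ(Tr x) = ∑ σ_i x` (as `S24.prod_eq_norm` in `S24/LocalCount.lean` for the norm; `Algebra.trace_eq_sum_embeddings_gen`
or: `E ⊗ L ≃ L^n`, or linear independence of characters + `trace_eq_sum_roots`). Compare constant
coefficients: `σ(p(y)) = p(β + X)`.
Route 2 (Dedekind). `T = K[y]`, `S = integralClosure T E` free of rank `n` over the PID `T`;
`Algebra.trace_quotient_mk`-type lemma in `Mathlib/RingTheory/Trace/Quotient.lean`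
(`Algebra.trace_quotient_eq_of_isDedekindDomain`); `S / (y - β) S ≃ ∏ S / P_i ≃ K^n` by CRT. -/
theorem trace_eval_eq_sum (hy : Transcendental K y) [FiniteDimensional K⟮y⟯ E] (β : K)
    (Ps : Fin (finrank K⟮y⟯ E) → Place K E) (hinj : Function.Injective Ps)
    (hPs : ∀ i, y ∈ (Ps i).toValuationSubring ∧ pv (Ps i) y = β)
    (x : E) (hx : x ∈ Reg K y) (p : K[X])
    (hp : ((Algebra.trace K⟮y⟯ E x : K⟮y⟯) : E) = aeval y p) :
    p.eval β = ∑ i, pv (Ps i) x := by
  sorry

/-- **Leaf T1.3c (discriminant on a fibre).** `disc(b)(β) = det (b_i(P_j))²`.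
PROOF. `Algebra.discr_def`, `Algebra.traceMatrix`; write `Tr(b i * b j) = t i j (y)` (`exists_aeval_trace`);
`aeval y q = det (aeval y (t i j)) = aeval y (det t)` so `q = det t` (`hy`); evaluate at `β`
(`RingHom.map_det`/`Matrix.det_apply`), `trace_eval_eq_sum`, `pv_mul`; `V * Vᵀ`, `Matrix.det_mul`,
`Matrix.det_transpose`. -/
theorem discr_eval_eq (hy : Transcendental K y) [FiniteDimensional K⟮y⟯ E] (β : K)
    (Ps : Fin (finrank K⟮y⟯ E) → Place K E) (hinj : Function.Injective Ps)
    (hPs : ∀ i, y ∈ (Ps i).toValuationSubring ∧ pv (Ps i) y = β)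
    (b : Fin (finrank K⟮y⟯ E) → E) (hb : ∀ i, b i ∈ Reg K y) (q : K[X])
    (hq : ((Algebra.discr K⟮y⟯ b : K⟮y⟯) : E) = aeval y q) :
    q.eval β = (Matrix.of fun i j => pv (Ps j) (b i)).det ^ 2 := by
  sorry

end Fermat.Agent.GAL.KLC
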