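import Fermat.Agent.GAL.KLC.Integral

/-!
# KL-C leaf T0: closed points of the special fibre of `Spec B_y`; specialisation of places
-/

set_option autoImplicit false
set_option linter.unusedSectionVars false

namespace Fermat.Agent.GAL.KLC

open AlgebraicCurve Polynomial IntermediateField Module Fermat.Agent.Lib.RR Fermat.Agent.GAL.RED

variable {K E k Eb : Type} [Field K] [Field E] [Algebra K E] [Field k] [Field Eb] [Algebra k Eb]
variable [IsAlgClosed K] [CharZero K] [IsFF K E] [IsAlgClosed k]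
variable {R : RedData K E k Eb} {y : E}

/-- **Leaf T0.** A maximal ideal of `B_y` containing a nonzero constant `ϖ ∈ A` is the kernel of a
`k`-point.
PROOF. (1) every `a ∈ A` with `redA a = 0` lies in `𝔫`: `a ^ n = ϖ * a'` with `a' ∈ A` (`hR.arch`), `𝔫` is
prime. (2) So `A → B_y / 𝔫 =: κ` factors through `k` (`R.resA` is onto with kernel the maximal ideal):
`κ` is a `k`-algebra, a field. (3) `κ` is integral over the image of `A[y]`
(`isIntegralElem_of_mem_chartRing`), which is a quotient of `k[X]`; as `κ` is a field this image is a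
field (`isField_of_isIntegral_of_isField`), so it is not `k[X]` itself, hence it is finite over `k`,
hence `κ` is algebraic over `k`, hence `k → κ` is bijective
(`IsAlgClosed.algebraMap_bijective_of_isIntegral`).
Simpler for (3): every element of `κ` is algebraic over `k`: first the image `η` of `y` (if `η` were
transcendental over `k`, `k[η]` would be a polynomial ring which is a field), then everything is integral
over `k[η]`. (4) `χ :=` inverse of `k ≃ κ` composed with `B_y → κ`. -/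
theorem exists_pt_of_isMaximal (hR : Ctx R) (hy : Chart R y) (𝔫 : Ideal ↥(chartRing R y))
    (h𝔫 : 𝔫.IsMaximal) (ϖ : K) (hϖA : ϖ ∈ R.A) (hϖ0 : ϖ ≠ 0) (hmem : cst R y ϖ hϖA ∈ 𝔫) :
    ∃ χ : ↥(chartRing R y) →+* k, IsPt R y χ ∧ RingHom.ker χ = 𝔫 := by
  sorry

/-- an ideal of `B_y` containing a nonzero constant and not contained in the kernel of any point is
the unit ideal. -/
theorem eq_top_of_forall_pt (hR : Ctx R) (hy : Chart R y) (I : Ideal ↥(chartRing R y))
    (ϖ : K) (hϖA : ϖ ∈ R.A) (hϖ0 : ϖ ≠ 0) (hmem : cst R y ϖ hϖA ∈ I)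
    (H : ∀ χ : ↥(chartRing R y) →+* k, IsPt R y χ → ∃ a ∈ I, χ a ≠ 0) : I = ⊤ := by
  by_contra hI
  obtain ⟨𝔫, h𝔫, hle⟩ := Ideal.exists_le_maximal I hI
  obtain ⟨χ, hχ, hker⟩ := exists_pt_of_isMaximal hR hy 𝔫 h𝔫 ϖ hϖA hϖ0 (hle hmem)
  obtain ⟨a, ha, hne⟩ := H χ hχ
  apply hne
  have : a ∈ RingHom.ker χ := hker ▸ hle ha
  exact this

/-- every value of a point is the reduction of a constant. -/
theorem IsPt.exists_cst {χ : ↥(chartRing R y) →+* k} (hχ : IsPt R y χ) (b : ↥(chartRing R y)) :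
    ∃ (a : K) (ha : a ∈ R.A), χ b = χ (cst R y a ha) := by
  obtain ⟨a, ha, h⟩ := R.exists_liftA (χ b)
  exact ⟨a, ha, by rw [hχ a ha, h]⟩

/-- **Leaf T0b.** a point factors through the reduction.
PROOF. `x = 0` trivial. Otherwise `hR.scale` gives `c ≠ 0` with `red (c x) ≠ 0`; then `c⁻¹ ∈ A`,
`redA c⁻¹ = 0` (else `red x = redA (c⁻¹) red (c x) ≠ 0`), `c x ∈ B_y`, and
`χ x = χ (c⁻¹) χ (c x) = 0`. -/
theorem IsPt.eq_zero_of_red_eq_zero (hR : Ctx R) {χ : ↥(chartRing R y) →+* k} (hχ : IsPt R y χ)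
    (x : ↥(chartRing R y)) (hx : R.red (x : E) = 0) : χ x = 0 := by
  sorry

theorem IsPt.eq_of_red_eq (hR : Ctx R) {χ : ↥(chartRing R y) →+* k} (hχ : IsPt R y χ)
    (x x' : ↥(chartRing R y)) (hx : R.red (x : E) = R.red (x' : E)) : χ x = χ x' := by
  have h := hχ.eq_zero_of_red_eq_zero hR (x - x') (by
    rw [AddSubgroupClass.coe_sub, R.red_sub x.2.1 x'.2.1, hx, sub_self])
  rwa [map_sub, sub_eq_zero] at h

/-- The place `P` specialises to the point `χ`. -/
def Spec (χ : ↥(chartRing R y) →+* k) (P : Place K E) : Prop :=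
  ∀ b : ↥(chartRing R y), pv P (b : E) ∈ R.A ∧ R.redA (pv P (b : E)) = χ b

/-- **Leaf T0c (E1).** a place (in the chart) which does not specialise to `χ` can be cut out.
PROOF. There is `b` with `¬ (pv P b ∈ A ∧ redA (pv P b) = χ b)`. Take `a₀ ∈ A` with `redA a₀ = χ b`,
`b₁ = b - a₀`, `v₁ = pv P b₁ = pv P b - a₀`. Then `¬ (v₁ ∈ A ∧ redA v₁ = 0)`, so `v₁ ≠ 0`, `v₁⁻¹ ∈ A`
(`R.div_mem_or_small` / valuation ring). `a := 1 - v₁⁻¹ b₁`. -/
theorem exists_of_not_spec {χ : ↥(chartRing R y) →+* k} (hχ : IsPt R y χ) (P : Place K E)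
    (hP : y ∈ P.toValuationSubring) (h : ¬ Spec χ P) :
    ∃ a : ↥(chartRing R y), χ a = 1 ∧ pv P (a : E) = 0 := by
  sorry

/-- finitely many places which do not specialise to `χ` can be cut out to any order. -/
theorem exists_of_forall_not_spec {χ : ↥(chartRing R y) →+* k} (hχ : IsPt R y χ)
    (T : Finset (Place K E)) (hT : ∀ P ∈ T, y ∈ P.toValuationSubring ∧ ¬ Spec χ P) (N : ℕ) :
    ∃ a : ↥(chartRing R y), χ a = 1 ∧ (a : E) ≠ 0 ∧ ∀ P ∈ T, (N : ℤ) ≤ P.ord (a : E) := by
  sorry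

end Fermat.Agent.GAL.KLC
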