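import Fermat.Agent.GAL.KLC.Gauss

/-!
# KL-C leaf T1.4: roots of the reduction of a polynomial lift (constant field algebraically closed)
-/

set_option autoImplicit false
set_option linter.unusedSectionVars false

namespace Fermat.Agent.GAL.KLC

open Polynomial Fermat.Agent.GAL.RED

variable {K E k Eb : Type} [Field K] [Field E] [Algebra K E] [Field k] [Field Eb] [Algebra k Eb]
variable [IsAlgClosed K]

/-- **Leaf T1.4.** Let `q ∈ A[X]` with `qbar ≠ 0` and `qbar(y₀) = 0`. Then `q` has a root `β ∈ A` with
`βbar = y₀`.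
PROOF. Over `K`: `q = c ∏ (X - r_i)` (`IsAlgClosed.splits`, `Polynomial.eq_prod_roots_of_splits_id` /
`Splits.eq_prod_roots`). Induction on the number of roots is convenient, in the form:
CLAIM: for every multiset/list `r` of elements of `K` and `c ≠ 0` such that `p = C c * ∏ (X - C r_i)` has
coefficients in `A` and one unit coefficient, every root `y₀` of `pbar` is `redA r_i` for some `i` with
`r_i ∈ A`.
Direct argument: put `I = {i | r_i ∈ A}`, `J` the complement (then `r_j⁻¹ ∈ A`, `redA r_j⁻¹ = 0`).
`p = c' ∏_{I} (X - r_i) ∏_{J} (1 - r_j⁻¹ X)` with `c' = c ∏_J (-r_j)`. The two products are primitive with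
coefficients in `A` and reductions `∏_I (X - redA r_i)`, `1`. By multiplicativity of primitivity
(reduction `A[X] → k[X]` is a ring hom into a domain) `c' ∈ A` is a unit (if `c' ∉ A`, then `c'⁻¹ p` has
zero reduction but equals a primitive polynomial; if `redA c' = 0` then `pbar = 0`). So
`pbar = redA c' ∏_I (X - redA r_i)` and `y₀ = redA r_i` for some `i ∈ I`. -/
theorem exists_root_lift (R : RedData K E k Eb) (q : (↥R.A)[X]) (hq : q.map R.resA ≠ 0) (y₀ : k)
    (h0 : (q.map R.resA).eval y₀ = 0) :
    ∃ β : K, β ∈ R.A ∧ R.redA β = y₀ ∧ (q.map R.A.subtype).eval β = 0 := by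
  sorry

end Fermat.Agent.GAL.KLC
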