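import Fermat.Agent.GAL.KLC.Adapted
import Fermat.Agent.GAL.KLC.FibreTrace
import Fermat.Agent.GAL.KLC.RootLift
import Fermat.Agent.GAL.KLC.Point

/-!
# KL-C block T1: over a residue disc without branch points, `B_y` separates the points of a fibre
(purity of the branch locus, by hand)
-/

set_option autoImplicit false
set_option linter.unusedSectionVars false

namespace Fermat.Agent.GAL.KLC

open AlgebraicCurve Polynomial IntermediateField Module Fermat.Agent.Lib.RR Fermat.Agent.GAL.RED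

variable {K E k Eb : Type} [Field K] [Field E] [Algebra K E] [Field k] [Field Eb] [Algebra k Eb]
variable [IsAlgClosed K] [CharZero K] [IsFF K E] [IsAlgClosed k]
variable {R : RedData K E k Eb} {y : E}

/-- **Leaf T1.5a.** The discriminant polynomial of an adapted basis does not vanish at an unbranched
point of the closed unit disc.
PROOF. Suppose `q(β) = 0`. `Ps` from `exists_enum_fibre`; `discr_eval_eq`: `det V = 0`,
`V i j = pv (Ps j) (B i)`. So there is `μ ≠ 0` with `∑ i, μ i * V i j = 0` for all `j`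
(`Matrix.exists_vecMul_eq_zero_iff`). Scale (`R.exists_scale_family`): `μ i ∈ A`, some `redA (μ i) ≠ 0`.
`x = ∑ μ i B i ∈ B_y`, `pv (Ps j) x = 0` for all `j`. `x / (y - β) ∈ B_y`: in `O` by
`red_sub_const_ne_zero`; at a place `P ∋ y`: if `pv P y ≠ β`, `y - β` is a unit at `P`; otherwise
`P = Ps j`, `P.ord (y - β) = 1` (`hβ`) and `x = 0 ∨ 0 < P.ord x` (`pv_eq_zero_iff`). Contradiction with
saturation. -/
theorem discr_eval_ne_zero (hy : Chart R y) (B : Basis (Fin (finrank K⟮y⟯ E)) K⟮y⟯ E)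
    (hBO : Orthonormal R B) (hB : ∀ i, B i ∈ chartRing R y)
    (hsat : ∀ (β : K) (μ : Fin (finrank K⟮y⟯ E) → K), β ∈ R.A → (∀ i, μ i ∈ R.A) →
        (∑ i, algebraMap K E (μ i) * B i) / (y - algebraMap K E β) ∈ chartRing R y →
        ∀ i, R.redA (μ i) = 0)
    (q : K[X]) (hq : ((Algebra.discr K⟮y⟯ B : K⟮y⟯) : E) = aeval y q)
    (β : K) (hβA : β ∈ R.A) (hβ : Unbr K y β) : q.eval β ≠ 0 := by
  sorry

/-- **Block T1.** If no point of the residue disc of `β` is a branch point of `E / K(y)`, then two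
distinct points of the fibre over `β` are separated by an element of `B_y`.
PROOF. `B` adapted (`exists_adapted_basis`). `disc B ∈ B_y ∩ K(y)` (sums of products of traces:
`exists_polyHom_trace`; or `exists_polyHom_of_mem`), so `disc B = polyHom q₀`, and `q₀bar ≠ 0` because
`red (disc B) ≠ 0` (`Orthonormal.red_discr_ne_zero`, `R.red_aeval_map`). If `q₀bar (redA β) = 0`,
`exists_root_lift` gives a root `β' ∈ A` of `q₀` with `redA β' = redA β`, contradicting
`discr_eval_ne_zero` (with `het β'`). So `q₀(β)` is a unit of `A`. `Ps` from `exists_enum_fibre` at `β`,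
`V i j = pv (Ps j) (B i) ∈ A` (`pv_mem_A`), `(det V)² = q₀(β)` (`discr_eval_eq`), so `det V` is a unit of `A`
and `V⁻¹ = (det V)⁻¹ adj V` has entries in `A`. `P = Ps j₁`, `Q = Ps j₂`, `j₁ ≠ j₂`.
`ν i := V⁻¹ j₁ i`, `ε = ∑ ν i B i`: `pv (Ps j) ε = ∑ i, V⁻¹ j₁ i * V i j = δ_{j₁ j}`. -/
theorem exists_separating (hy : Chart R y) (β : K) (hβ : β ∈ R.A)
    (het : ∀ β' ∈ R.A, R.redA β' = R.redA β → Unbr K y β') (P Q : Place K E)
    (hP : y ∈ P.toValuationSubring) (hPβ : pv P y = β)
    (hQ : y ∈ Q.toValuationSubring) (hQβ : pv Q y = β) (hPQ : P ≠ Q) :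
    ∃ ε ∈ chartRing R y, pv P ε = 1 ∧ pv Q ε = 0 := by
  sorry

/-- **(E2)** two places with the same `y`-value specialising to the same étale point are equal. -/
theorem eq_of_spec (hy : Chart R y) {χ : ↥(chartRing R y) →+* k}
    (het : ∀ β ∈ R.A, R.redA β = χ (crd R y hy.mem) → Unbr K y β) (P Q : Place K E)
    (hP : y ∈ P.toValuationSubring) (hQ : y ∈ Q.toValuationSubring)
    (hPs : Spec χ P) (hQs : Spec χ Q) (hPQ : pv P y = pv Q y) : P = Q := by
  by_contra hne
  have h1 := hPs (crd R y hy.mem)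
  obtain ⟨ε, hε, hεP, hεQ⟩ := exists_separating hy (pv P y) h1.1
    (fun β' hβ' h => het β' hβ' (h.trans h1.2)) P Q hP rfl hQ hPQ.symm hne
  have h2 := (hPs ⟨ε, hε⟩).2
  have h3 := (hQs ⟨ε, hε⟩).2
  simp only [hεP, hεQ] at h2 h3
  rw [← h3, R.redA_one, R.redA_zero] at h2
  exact one_ne_zero h2

end Fermat.Agent.GAL.KLC
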