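import Fermat.Agent.GAL.KLC.Val

/-!
# KL-C leaf G: Gauss lemma for a coordinate `y` with transcendental reduction

No hypothesis on `E / K(y)` here.  Everything is formal from `RED/Basic.lean`, `RED/Lift.lean`
(`R.exists_scale_family`, `R.exists_scale_poly`, `R.aeval_map_mem`, `R.red_aeval_map`).
-/

set_option autoImplicit false
set_option linter.unusedSectionVars false

namespace Fermat.Agent.GAL.KLC

open AlgebraicCurve Polynomial IntermediateField Fermat.Agent.Lib.RR Fermat.Agent.GAL.RED

variable {K E k Eb : Type} [Field K] [Field E] [Algebra K E] [Field k] [Field Eb] [Algebra k Eb]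
variable (R : RedData K E k Eb) {y : E}

/-- a primitive polynomial in `y` is a unit of `O`.
PROOF. `R.red_aeval_map`, transcendence. (`y ∈ O` because `R.red y ≠ 0`.) -/
theorem red_aeval_ne_zero (hy : Transcendental k (R.red y)) (q : (↥R.A)[X])
    (hq : q.map R.resA ≠ 0) : R.red (aeval y (q.map R.A.subtype)) ≠ 0 := by
  sorry

/-- **Gauss lemma.** `p(y) ∈ O` iff the coefficients of `p` are in `A`.
PROOF. `p = 0` trivial; otherwise `R.exists_scale_poly` (with `n = 1`) or `R.exists_scale_family` gives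
`a ≠ 0`, `q` primitive with `q = a p`. `q(y)` is a unit of `O` by `red_aeval_ne_zero`, so
`a⁻¹ = p(y) / q(y) ∈ O ∩ K = A` (`R.algebraMap_mem_iff`), hence `p = a⁻¹ q` has coefficients in `A`. -/
theorem exists_map_of_aeval_mem (hy : Transcendental k (R.red y)) (p : K[X])
    (h : aeval y p ∈ R.O) : ∃ q : (↥R.A)[X], q.map R.A.subtype = p := by
  sorry

/-- `y` is transcendental over `K`. -/
theorem transcendental_of_red (hy : Transcendental k (R.red y)) : Transcendental K y := by
  sorry

/-- every nonzero element of `K(y)` is `a q₁(y) / q₂(y)` with `q₁ q₂` primitive. -/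
theorem exists_frac (hy : Transcendental k (R.red y)) (z : E) (hz : z ∈ K⟮y⟯) (hz0 : z ≠ 0) :
    ∃ (a : K) (q₁ q₂ : (↥R.A)[X]), a ≠ 0 ∧ q₁.map R.resA ≠ 0 ∧ q₂.map R.resA ≠ 0 ∧
      z = algebraMap K E a * aeval y (q₁.map R.A.subtype) / aeval y (q₂.map R.A.subtype) := by
  sorry

/-- the reduction of an element of `K(y)` lies in `k(ybar)`. -/
theorem red_mem_adjoin (hy : Transcendental k (R.red y)) (z : E) (hz : z ∈ K⟮y⟯) :
    R.red z ∈ k⟮R.red y⟯ := by
  sorry

/-- every element of `k(ybar)` lifts to `K(y) ∩ O`. -/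
theorem exists_lift_adjoin (hy : Transcendental k (R.red y)) (w : Eb) (hw : w ∈ k⟮R.red y⟯) :
    ∃ z : E, z ∈ K⟮y⟯ ∧ z ∈ R.O ∧ R.red z = w := by
  sorry

/-- `y - β` is a unit of `O` for `β ∈ A`. -/
theorem red_sub_const_ne_zero (hy : Transcendental k (R.red y)) {β : K} (hβ : β ∈ R.A) :
    R.red (y - algebraMap K E β) ≠ 0 := by
  sorry

/-- `1 - β y` has reduction `1` for `β` in the maximal ideal of `A`. -/
theorem red_one_sub_mul (hy : y ∈ R.O) {β : K} (hβ : β ∈ R.A) (hβ0 : R.redA β = 0) :
    R.red (1 - algebraMap K E β * y) = 1 := by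
  sorry

end Fermat.Agent.GAL.KLC
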