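import Fermat.Agent.GAL.KLC.ModFG

/-!
# KL-C block T4c: from approximate sections on the two charts to a global section
-/

set_option autoImplicit false
set_option linter.unusedSectionVars false

namespace Fermat.Agent.GAL.KLC

open AlgebraicCurve Polynomial IntermediateField Module Fermat.Agent.Lib.RR Fermat.Agent.GAL.RED

variable {K E k Eb : Type} [Field K] [Field E] [Algebra K E] [Field k] [Field Eb] [Algebra k Eb]
variable [IsAlgClosed K] [CharZero K] [IsFF K E]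
variable {R : RedData K E k Eb} {c : E}

/-- a nonzero global section of `O(-div f / m)` makes `f` an `m`-th power. -/
theorem exists_pow_of_global (m : ℕ) [NeZero m] (f : E) (hf : f ≠ 0) (F : E) (hF : F ≠ 0)
    (h₀ : F ∈ ModK K c f m) (h₁ : F ∈ ModK K c⁻¹ f m) : ∃ w : E, f = w ^ m := by
  have hreg : ∀ P : Place K E, 0 ≤ P.ord (F ^ m * f⁻¹) := by
    intro P
    apply S24.ord_nonneg_of_mem
    rcases P.toValuationSubring.mem_or_inv_mem c with h | h
    · exact h₀ P h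
    · exact h₁ P h
  obtain ⟨l, hl⟩ := mem_range_of_ord_nonneg hreg
  have hl0 : l ≠ 0 := by
    rintro rfl
    rw [map_zero] at hl
    exact mul_ne_zero (pow_ne_zero m hF) (inv_ne_zero hf) hl.symm
  obtain ⟨μ, hμ⟩ := IsAlgClosed.exists_pow_nat_eq l (Nat.pos_of_ne_zero (NeZero.ne m))
  have hμ0 : μ ≠ 0 := by
    rintro rfl
    rw [zero_pow (NeZero.ne m)] at hμ
    exact hl0 hμ.symm
  have hμE : algebraMap K E μ ≠ 0 := by simpa using hμ0
  refine ⟨F / algebraMap K E μ, ?_⟩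
  rw [div_pow, ← map_pow, hμ, hl]
  field_simp

/-- **Block T4c.** -/
theorem glue (hR : Ctx R) (hc : Chart R c) (m : ℕ) [NeZero m] (f : E) (hf : R.red f = 1)
    (π : K) (hπA : π ∈ R.A) (hπ0 : π ≠ 0) (hπ : R.redA π = 0)
    (H : ∀ n : ℕ, ∃ s : E, R.red s = 1 ∧
      (∃ g z : E, g ∈ ModK K c f m ∧ g ∈ R.O ∧ z ∈ R.O ∧ s = g + algebraMap K E (π ^ n) * z) ∧
      (∃ g z : E, g ∈ ModK K c⁻¹ f m ∧ g ∈ R.O ∧ z ∈ R.O ∧ s = g + algebraMap K E (π ^ n) * z)) :
    ∃ w : E, f = w ^ m := by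
  have hf0 : f ≠ 0 := R.ne_zero_of_red_ne_zero (by rw [hf]; exact one_ne_zero)
  have hcK : Transcendental K c := transcendental_of_red R hc.trans
  haveI := hc.fin
  obtain ⟨C, hCA, hC0, hC⟩ := cech_bounded hR hc _ _ (cechData_ModK hcK f hf0 m)
  obtain ⟨n, hn⟩ := hR.arch π C hπA hπ hC0
  obtain ⟨s, hs, ⟨g₀, z₀, hg₀, hg₀O, hz₀, e₀⟩, ⟨g₁, z₁, hg₁, hg₁O, hz₁, e₁⟩⟩ := H (n + 1)
  set ϖ : K := π ^ (n + 1) with hϖ
  have hϖ0 : ϖ ≠ 0 := pow_ne_zero _ hπ0
  have hϖE : algebraMap K E ϖ ≠ 0 := by simpa using hϖ0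
  have hCE : algebraMap K E C ≠ 0 := by simpa using hC0
  have hϖA : ϖ ∈ R.A := pow_mem hπA _
  have hϖr : R.redA ϖ = 0 := by rw [hϖ, R.redA_pow, hπ, zero_pow (Nat.succ_ne_zero n)]
  set l : K := ϖ / C with hl
  have hlA : l ∈ R.A := by
    have : l = π * (π ^ n / C) := by rw [hl, hϖ, pow_succ]; ring
    rw [this]; exact mul_mem hπA hn
  have hlr : R.redA l = 0 := by
    have : l = π * (π ^ n / C) := by rw [hl, hϖ, pow_succ]; ring
    rw [this, R.redA_mul hπA hn, hπ, zero_mul]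
  have hdiff : g₀ - g₁ = algebraMap K E ϖ * (z₁ - z₀) := by
    have := e₀.symm.trans e₁
    linear_combination this
  have hξ : ϖ⁻¹ • g₀ - ϖ⁻¹ • g₁ ∈ R.O := by
    have : ϖ⁻¹ • g₀ - ϖ⁻¹ • g₁ = z₁ - z₀ := by
      rw [← smul_sub, hdiff, Algebra.smul_def, map_inv₀, ← mul_assoc, inv_mul_cancel₀ hϖE, one_mul]
    rw [this]; exact sub_mem hz₁ hz₀
  obtain ⟨g₀', hg₀', g₁', hg₁', hg₀'O, hg₁'O, e⟩ :=
    hC _ (Submodule.smul_mem _ ϖ⁻¹ hg₀) _ (Submodule.smul_mem _ ϖ⁻¹ hg₁) hξ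
  have key : g₀ - l • g₀' = g₁ - l • g₁' := by
    have h1 : l • g₀' - l • g₁' = g₀ - g₁ := by
      rw [← smul_sub, ← e, ← smul_sub, Algebra.smul_def, Algebra.smul_def, hl, map_div₀, map_inv₀]
      field_simp
    linear_combination -h1
  have hred : R.red (g₀ - l • g₀') = 1 := by
    have h1 : R.red (l • g₀') = 0 := by rw [R.red_smul hlA hg₀'O, hlr, zero_smul]
    have h2 : R.red g₀ = 1 := by
      have : g₀ = s - ϖ • z₀ := by rw [e₀, Algebra.smul_def]; ring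
      have hsO : s ∈ R.O := R.mem_of_red_ne_zero (by rw [hs]; exact one_ne_zero)
      rw [this, R.red_sub hsO (R.smul_mem hϖA hz₀), hs, R.red_smul hϖA hz₀, hϖr, zero_smul,
        sub_zero]
    rw [R.red_sub hg₀O (R.smul_mem hlA hg₀'O), h1, h2, sub_zero]
  refine exists_pow_of_global (c := c) m f hf0 (g₀ - l • g₀')
    (R.ne_zero_of_red_ne_zero (by rw [hred]; exact one_ne_zero))
    (sub_mem hg₀ (Submodule.smul_mem _ l hg₀')) ?_
  rw [key]
  exact sub_mem hg₁ (Submodule.smul_mem _ l hg₁')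

end Fermat.Agent.GAL.KLC
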