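import Fermat.Agent.GAL.KLC.Ortho

/-!
# KL-C leaf I: integrality of `B_y = chartRing R y` over `A[y]`
-/

set_option autoImplicit false
set_option linter.unusedSectionVars false

namespace Fermat.Agent.GAL.KLC

open AlgebraicCurve Polynomial IntermediateField Module Fermat.Agent.Lib.RR Fermat.Agent.GAL.RED

variable {K E k Eb : Type} [Field K] [Field E] [Algebra K E] [Field k] [Field Eb] [Algebra k Eb]

section Field

variable [IsAlgClosed K] [CharZero K] [IsFF K E] {y : E}

/-- **Leaf I1.** `Reg K y` is the integral closure of `K[y]`.
PROOF. `←`: valuation rings are integrally closed and contain `K[y]` if they contain `y`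
(`S24.integral_mem_valuationSubring`, `S24.adjoin_le_valuationSubring`).
`→`: `S := integralClosure (Algebra.adjoin K {y}) E` is a Dedekind domain with fraction field `E`
(as in `S24/Zeros.lean`, `S24/LocalCount.lean: exists_embedding_of_place`); every height one prime `w`
gives the place `Place.ofHeightOneSpectrum w` (`S24/PlaceDedekind.lean`), which contains `y`; conclude
with `IsDedekindDomain.HeightOneSpectrum.mem_integers_of_valuation_le_one`.
(Same statement as `GAL/Igusa/PoleSpace.lean` P1/P2: if these are already proved, cite them.) -/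
theorem mem_Reg_iff_isIntegral (hy : Transcendental K y) [FiniteDimensional K⟮y⟯ E] (x : E) :
    x ∈ Reg K y ↔ IsIntegral (Algebra.adjoin K {y}) x := by
  sorry

/-- an element of `K(y)` which is regular where `y` is regular is a polynomial in `y`.
PROOF. `K[y]` is integrally closed in its fraction field `K(y)` (polynomial ring, `hy`). -/
theorem exists_aeval_of_mem_Reg (hy : Transcendental K y) [FiniteDimensional K⟮y⟯ E] (x : E)
    (hx : x ∈ Reg K y) (hxy : x ∈ K⟮y⟯) : ∃ p : K[X], x = aeval y p := by
  sorry

/-- the trace of a regular function is a polynomial in `y`. (`Algebra.isIntegral_trace`.) -/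
theorem exists_aeval_trace (hy : Transcendental K y) [FiniteDimensional K⟮y⟯ E] (x : E)
    (hx : x ∈ Reg K y) : ∃ p : K[X], ((Algebra.trace K⟮y⟯ E x : K⟮y⟯) : E) = aeval y p := by
  sorry

/-- for every `β` there is a place with `y(P) = β`. (`S24.sum_ord_sub_const`: the sum of the orders
of the zeros of `y - β` is `[E : K(y)] > 0`.) -/
theorem exists_place_pv_eq (hy : Transcendental K y) [FiniteDimensional K⟮y⟯ E] (β : K) :
    ∃ P : Place K E, y ∈ P.toValuationSubring ∧ pv P y = β := by
  sorry

end Field

variable [IsAlgClosed K] [CharZero K] [IsFF K E]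
variable {R : RedData K E k Eb} {y : E}

/-- `A[X] → E`, `X ↦ y`. -/
noncomputable def polyHom (R : RedData K E k Eb) (y : E) : (↥R.A)[X] →+* E :=
  ((aeval y : K[X] →ₐ[K] E) : K[X] →+* E).comp (mapRingHom R.A.subtype)

theorem polyHom_apply (q : (↥R.A)[X]) : polyHom R y q = aeval y (q.map R.A.subtype) := rfl

theorem polyHom_mem_chartRing (hy : y ∈ R.O) (q : (↥R.A)[X]) : polyHom R y q ∈ chartRing R y := by
  sorry

/-- an element of `B_y ∩ K(y)` is a polynomial in `y` with coefficients in `A`. -/
theorem exists_polyHom_of_mem (hy : Chart R y) (x : E) (hx : x ∈ chartRing R y) (hxy : x ∈ K⟮y⟯) :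
    ∃ q : (↥R.A)[X], x = polyHom R y q := by
  sorry

/-- **Leaf I2.** the trace of an element of `B_y` is in `A[y]`.
PROOF. `exists_aeval_trace`, `Orthonormal.red_trace` (with `exists_orthonormal`),
`exists_map_of_aeval_mem`. -/
theorem exists_polyHom_trace (hy : Chart R y) (x : E) (hx : x ∈ chartRing R y) :
    ∃ q : (↥R.A)[X], ((Algebra.trace K⟮y⟯ E x : K⟮y⟯) : E) = polyHom R y q := by
  sorry

/-- **Leaf I3.** `B_y` is integral over `A[y]`.
PROOF. Let `χ = charpoly` of the matrix `C = Algebra.leftMulMatrix B x` in an orthonormal basis `B`.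
Its entries `B.repr (x * B j) i` are in `O`, so the coefficients of `χ` are in `O ∩ K(y)`
(polynomials in the entries). `χ = (minpoly K(y) x) ^ r` (`Algebra.charpoly_leftMulMatrix` +
`charpoly_eq_minpoly_pow`-type lemma) or directly: the coefficients of `minpoly K(y) x` are integral over
`K[y]` (`minpoly.isIntegrallyClosed_eq_field_fractions`), so are those of its powers; hence the
coefficients of `χ` are in `Reg K y ∩ O ∩ K(y) = A[y]` (`exists_polyHom_of_mem`), and `χ(x) = 0`.
ALTERNATIVE avoiding `χ = minpoly ^ r`: coefficients of `minpoly K(y) x`: they are in `K[y]`, and they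
are in `O` because `O ∩ K(y)` is integrally closed in `K(y)`, `x` is integral over it (by `χ`), and the
minimal polynomial over the fraction field of an integrally closed domain of an integral element has
coefficients in the domain. -/
theorem isIntegralElem_of_mem_chartRing (hy : Chart R y) (x : E) (hx : x ∈ chartRing R y) :
    (polyHom R y).IsIntegralElem x := by
  sorry

/-- **Leaf I4.** values of elements of `B_y` at points of the closed unit disc are integral.
PROOF. Apply `pv P` to the monic equation of `isIntegralElem_of_mem_chartRing`: `pv P x` is a root of a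
monic polynomial whose coefficients are `q_i(pv P y) ∈ A` (`pv_aeval`); `A` is integrally closed in
`K`. -/
theorem pv_mem_A (hy : Chart R y) {x : E} (hx : x ∈ chartRing R y) (P : Place K E)
    (hP : y ∈ P.toValuationSubring) (hPA : pv P y ∈ R.A) : pv P x ∈ R.A := by
  sorry

end Fermat.Agent.GAL.KLC
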