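import Fermat.Agent.GAL.KLC.Etale

/-!
# KL-C leaf T2a: near an étale point the divisor `div f / m` is cut out by a rational function of `y`
with reduction `1`
-/

set_option autoImplicit false
set_option linter.unusedSectionVars false

namespace Fermat.Agent.GAL.KLC

open AlgebraicCurve Polynomial IntermediateField Module Fermat.Agent.Lib.RR Fermat.Agent.GAL.RED

variable {K E k Eb : Type} [Field K] [Field E] [Algebra K E] [Field k] [Field Eb] [Algebra k Eb]
variable [IsAlgClosed K] [CharZero K] [IsFF K E] [IsAlgClosed k]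
variable {R : RedData K E k Eb} {y : E}

open Classical in
/-- order of `y - β` at a place specialising to an étale point. -/
theorem ord_sub_of_spec (hy : Chart R y) {χ : ↥(chartRing R y) →+* k}
    (het : ∀ β ∈ R.A, R.redA β = χ (crd R y hy.mem) → Unbr K y β) (P : Place K E)
    (hP : y ∈ P.toValuationSubring) (hPs : Spec χ P) (β : K) :
    P.ord (y - algebraMap K E β) = if pv P y = β then 1 else 0 := by
  sorry

/-- **Leaf T2a.**
PROOF. `Z := (divOf f).support` (finite), `Z_χ := {P ∈ Z | y ∈ P ∧ Spec χ P}` (classical filter).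
For `P ∈ Z_χ`: `β_P := pv P y ∈ A`, `redA β_P = y₀ := χ (crd y)`; `D P := P.ord f / m`.
`φ := ∏_{P ∈ Z_χ} (y - β_P) ^ (D P)` (`zpow`).
(i) For `P₀ ∋ y` with `Spec χ P₀`: `P₀.ord φ = ∑_{P ∈ Z_χ} D P * [pv P₀ y = β_P]` (`ord_sub_of_spec`), and
`pv P₀ y = pv P y` forces `P = P₀` (`eq_of_spec`). So `P₀.ord φ = D P₀` if `P₀ ∈ Z`, and `= 0 = P₀.ord f`
otherwise. Hence `m * P₀.ord φ = P₀.ord f`.
(ii) `red φ = (ybar - y₀) ^ d`, `d = ∑ D P` (`R.red_prod`, `R.red_zpow`, `R.red_sub`, `red_sub_const_ne_zero`).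
(iii) `d = 0`. Let `u = f / φ ^ m`: `red u = (ybar - y₀) ^ (-m d)`, a unit of `O`, and `P₀.ord u = 0` for all
`P₀ ∋ y` specialising to `χ`. `T := {P ∈ supp (divOf u) | y ∈ P}`: none of them specialises to `χ`;
`exists_of_forall_not_spec` with `N ≥ |P.ord u|` for all `P ∈ T` gives `a` with `χ a = 1`,
`w₊ = a u ∈ B_y`, `w₋ = a u⁻¹ ∈ B_y`. Take `β₀ ∈ A` with `redA β₀ = y₀`, `t = y - β₀ ∈ B_y`, `χ t = 0`.
If `d > 0`: `red (w₊ t ^ (m d)) = red a`, so `χ w₊ * 0 = χ a = 1` (`IsPt.eq_of_red_eq`), absurd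
(`m d > 0`). If `d < 0` use `w₋`. -/
theorem exists_local_gen (hR : Ctx R) (hy : Chart R y) (m : ℕ) [NeZero m] (f : E)
    (hf : R.red f = 1) (hdiv : ∀ P : Place K E, (m : ℤ) ∣ P.ord f)
    (χ : ↥(chartRing R y) →+* k) (hχ : IsPt R y χ)
    (het : ∀ β ∈ R.A, R.redA β = χ (crd R y hy.mem) → Unbr K y β) :
    ∃ φ : E, R.red φ = 1 ∧
      ∀ P : Place K E, y ∈ P.toValuationSubring → Spec χ P → (m : ℤ) * P.ord φ = P.ord f := by
  sorry

end Fermat.Agent.GAL.KLC
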