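import Fermat.Agent.GAL.KLC.Charts
import Fermat.Agent.GAL.KLC.Glue

/-!
# KL-C: the abstract theorem

`E / K(c)` tamely ramified over `0, γ, ∞` only, `γ` a unit of `A`, ramification indices dividing `e`, `e` a unit of
`A`; `c` has full separable residue degree; two Kummer covers `y₁ ^ e = c`, `y₂ ^ e = c - γ` with full separable
residue degree. Then: `red f = 1`, `m ∣ div f`, `m` a unit of `A`  ⟹  `f` is an `m`-th power.
-/

set_option autoImplicit false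
set_option linter.unusedSectionVars false

namespace Fermat.Agent.GAL.KLC

open AlgebraicCurve Polynomial IntermediateField Module Fermat.Agent.Lib.RR Fermat.Agent.GAL.RED

variable {K E k Eb : Type} [Field K] [Field E] [Algebra K E] [Field k] [Field Eb] [Algebra k Eb]
variable [IsAlgClosed K] [CharZero K] [IsFF K E] [IsAlgClosed k]
variable {R : RedData K E k Eb} {c : E}
variable {E₁ Eb₁ : Type} [Field E₁] [Algebra K E₁] [Algebra E E₁] [IsScalarTower K E E₁]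
  [Field Eb₁] [Algebra k Eb₁] [IsFF K E₁]
variable {E₂ Eb₂ : Type} [Field E₂] [Algebra K E₂] [Algebra E E₂] [IsScalarTower K E E₂]
  [Field Eb₂] [Algebra k Eb₂] [IsFF K E₂]
variable {R₁ : RedData K E₁ k Eb₁} {R₂ : RedData K E₂ k Eb₂} {γ : K} {y₁ : E₁} {y₂ : E₂} {e : ℕ}

/-- **KL-C, abstract form.** -/
theorem inj_of_covers (hR : Ctx R) (hc : Chart R c) (hγ : γ ∈ R.A) (hγ0 : R.redA γ ≠ 0)
    (ht : Tame K c γ e) (he : (e : k) ≠ 0)
    (hR₁ : Ctx R₁) (hy₁ : Chart R₁ y₁) (hcov₁ : Cover R R₁ c 0 y₁ e)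
    (hR₂ : Ctx R₂) (hy₂ : Chart R₂ y₂) (hcov₂ : Cover R R₂ c γ y₂ e)
    (m : ℕ) (hm : (m : k) ≠ 0) (f : E)
    (hf : R.red f = 1) (hdiv : ∀ P : Place K E, (m : ℤ) ∣ P.ord f) :
    ∃ w : E, f = w ^ m := by
  have : NeZero m := ⟨by rintro rfl; simp at hm⟩
  by_cases hf1 : f = 1
  · exact ⟨1, by rw [hf1, one_pow]⟩
  obtain ⟨π, hπA, hπ0, hπ, hfπ⟩ := exists_modulus R hR.scale hf hf1
  refine glue hR hc m f hf π hπA hπ0 hπ fun n => ?_
  obtain ⟨hs, hsf⟩ := apx_spec R hm hπA hπ hfπ n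
  set s := aeval f (apxP K m n) with hsdef
  have hϖA : π ^ (n + 1) ∈ R.A := pow_mem hπA _
  have hϖ0 : π ^ (n + 1) ≠ 0 := pow_ne_zero _ hπ0
  have h0 := chart0 hR hc hγ hγ0 ht he hR₁ hy₁ hcov₁ hR₂ hy₂ hcov₂ m hm f hf hdiv _ hϖA hϖ0 s hs hsf
  have h1 := chart1 hR hc hγ ht he hR₁ hy₁ hcov₁ m hm f hf hdiv _ hϖA hϖ0 s hs hsf h0
  refine ⟨s, hs, ?_, ?_⟩
  · obtain ⟨g, z, hg, hgO, hz, hgz⟩ : (1 : ↥(chartRing R c)) ∈ goodIdeal R c f m (π ^ (n + 1)) s := by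
      rw [h0]; exact Submodule.mem_top
    rw [Subring.coe_one, one_mul] at hgz
    refine ⟨g, algebraMap K E π * z, hg, hgO, mul_mem (R.algebraMap_mem π hπA) hz, ?_⟩
    rw [hgz, pow_succ, map_mul]; ring
  · obtain ⟨g, z, hg, hgO, hz, hgz⟩ :
        (1 : ↥(chartRing R c⁻¹)) ∈ goodIdeal R c⁻¹ f m (π ^ (n + 1)) s := by
      rw [h1]; exact Submodule.mem_top
    rw [Subring.coe_one, one_mul] at hgz
    refine ⟨g, algebraMap K E π * z, hg, hgO, mul_mem (R.algebraMap_mem π hπA) hz, ?_⟩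
    rw [hgz, pow_succ, map_mul]; ring

end Fermat.Agent.GAL.KLC
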