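import Fermat.Agent.GAL.KLC.Gauss

/-!
# KL-C leaf O: lifts of a residue basis form an orthonormal basis
-/

set_option autoImplicit false
set_option linter.unusedSectionVars false

namespace Fermat.Agent.GAL.KLC

open AlgebraicCurve Polynomial IntermediateField Module Fermat.Agent.Lib.RR Fermat.Agent.GAL.RED

variable {K E k Eb : Type} [Field K] [Field E] [Algebra K E] [Field k] [Field Eb] [Algebra k Eb]
variable {R : RedData K E k Eb} {y : E}

/-- `B` is an orthonormal basis of `E / K(y)`: the basis vectors are in `O` and the coordinates of an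
element of `O` are in `O`; the coordinates of an element of the maximal ideal are in the maximal
ideal. -/
structure Orthonormal (R : RedData K E k Eb) {y : E} {n : ℕ} (B : Basis (Fin n) K⟮y⟯ E) : Prop where
  mem : ∀ i, B i ∈ R.O
  repr_mem : ∀ x ∈ R.O, ∀ i, ((B.repr x i : K⟮y⟯) : E) ∈ R.O
  indep : LinearIndependent k⟮R.red y⟯ (fun i => R.red (B i))

/-- **Leaf O1.** `n = [E : K(y)]` elements of `O` whose reductions are linearly independent over
`k(ybar)` form an orthonormal basis.
PROOF. Let `c i ∈ K(y)` not all zero. `O ∩ K(y)` is a valuation ring: choose `i₀` with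
`c i / c i₀ ∈ O` for all `i` (finite family; cf. `S28.D1a_pivot`). Then
`red (∑ (c i / c i₀) b i) = ∑ red (c i / c i₀) red (b i) ≠ 0`: coefficients in `k(ybar)`
(`red_mem_adjoin`), the one at `i₀` is `1`. So `∑ c i b i = c i₀ * unit`: nonzero (independence, hence
a basis by `hn`: `basisOfLinearIndependentOfCardEqFinrank`), and it is in `O` iff `c i₀ ∈ O` iff all
`c i ∈ O`. -/
theorem exists_orthonormal_of_lifts (hy : Chart R y) {n : ℕ} (hn : n = finrank K⟮y⟯ E)
    (b : Fin n → E) (hb : ∀ i, b i ∈ R.O)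
    (hli : LinearIndependent k⟮R.red y⟯ (fun i => R.red (b i))) :
    ∃ B : Basis (Fin n) K⟮y⟯ E, (∀ i, B i = b i) ∧ Orthonormal R B := by
  sorry

/-- reduction in coordinates. -/
theorem Orthonormal.red_eq {n : ℕ} {B : Basis (Fin n) K⟮y⟯ E} (hB : Orthonormal R B) {x : E}
    (hx : x ∈ R.O) : R.red x = ∑ i, R.red ((B.repr x i : K⟮y⟯) : E) * R.red (B i) := by
  sorry

/-- the coordinates of an element of the maximal ideal are in the maximal ideal. -/
theorem Orthonormal.red_repr_eq_zero (hy : Chart R y) {n : ℕ} {B : Basis (Fin n) K⟮y⟯ E}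
    (hB : Orthonormal R B) {x : E} (hx : x ∈ R.O) (h0 : R.red x = 0) (i : Fin n) :
    R.red ((B.repr x i : K⟮y⟯) : E) = 0 := by
  sorry

/-- the reductions of an orthonormal basis form a basis of `Eb / k(ybar)`. -/
theorem Orthonormal.exists_basis_red (hy : Chart R y) {n : ℕ} {B : Basis (Fin n) K⟮y⟯ E}
    (hB : Orthonormal R B) :
    ∃ Bb : Basis (Fin n) k⟮R.red y⟯ Eb, (∀ i, Bb i = R.red (B i)) ∧
      ∀ x ∈ R.O, ∀ i, ((Bb.repr (R.red x) i : k⟮R.red y⟯) : Eb) = R.red ((B.repr x i : K⟮y⟯) : E) := by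
  sorry

/-- **Leaf O2 (trace).** The trace of an element of `O` is in `O` and reduces to the trace of the
reduction.
PROOF. `Algebra.trace_eq_matrix_trace B`, `Algebra.leftMulMatrix_apply`: `Tr x = ∑ i, B.repr (x * B i) i`;
same for `Bb` from `exists_basis_red`; use its second property for `x * B i ∈ O`. -/
theorem Orthonormal.red_trace (hy : Chart R y) {n : ℕ} {B : Basis (Fin n) K⟮y⟯ E}
    (hB : Orthonormal R B) {x : E} (hx : x ∈ R.O) :
    ((Algebra.trace K⟮y⟯ E x : K⟮y⟯) : E) ∈ R.O ∧
      R.red ((Algebra.trace K⟮y⟯ E x : K⟮y⟯) : E) =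
        ((Algebra.trace k⟮R.red y⟯ Eb (R.red x) : k⟮R.red y⟯) : Eb) := by
  sorry

/-- **Leaf O3 (discriminant).** The discriminant of an orthonormal basis is a unit of `O`.
PROOF. `Algebra.discr_def`, `Matrix.det_apply`: `red` commutes with the determinant of a matrix with
entries in `O` (`R.red_sum`, `R.red_prod`), entries by `red_trace`; the result is
`Algebra.discr k(ybar) Bb ≠ 0` (`Algebra.discr_not_zero_of_basis`, separability `hy.sep`). -/
theorem Orthonormal.red_discr_ne_zero (hy : Chart R y) {n : ℕ} {B : Basis (Fin n) K⟮y⟯ E}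
    (hB : Orthonormal R B) : R.red ((Algebra.discr K⟮y⟯ B : K⟮y⟯) : E) ≠ 0 := by
  sorry

/-- existence of an orthonormal basis. -/
theorem exists_orthonormal (hy : Chart R y) :
    ∃ B : Basis (Fin (finrank K⟮y⟯ E)) K⟮y⟯ E, Orthonormal R B := by
  sorry

end Fermat.Agent.GAL.KLC
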