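import Fermat.Agent.GAL.KLC.Defs

/-!
# KL-C: API of `pv P x` (value of `x` at the place `P`)
-/

set_option autoImplicit false
set_option linter.unusedSectionVars false

namespace Fermat.Agent.GAL.KLC

open AlgebraicCurve Polynomial IntermediateField Fermat.Agent.Lib.RR Fermat.Agent.GAL.RED

variable {K E : Type} [Field K] [Field E] [Algebra K E] [IsAlgClosed K] [IsFF K E]

variable (P : Place K E)

theorem pv_of_not_mem {x : E} (h : x ∉ P.toValuationSubring) : pv P x = 0 := GRed.of_not_mem _ _ h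

theorem mem_of_pv_ne_zero {x : E} (h : pv P x ≠ 0) : x ∈ P.toValuationSubring :=
  GRed.mem_of_ne_zero _ _ h

@[simp] theorem pv_zero : pv P 0 = 0 := GRed.zero _ _

@[simp] theorem pv_one : pv P 1 = 1 := GRed.one _ _

theorem pv_add {x y : E} (hx : x ∈ P.toValuationSubring) (hy : y ∈ P.toValuationSubring) :
    pv P (x + y) = pv P x + pv P y := GRed.add _ _ hx hy

theorem pv_sub {x y : E} (hx : x ∈ P.toValuationSubring) (hy : y ∈ P.toValuationSubring) :
    pv P (x - y) = pv P x - pv P y := GRed.sub _ _ hx hy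

theorem pv_mul {x y : E} (hx : x ∈ P.toValuationSubring) (hy : y ∈ P.toValuationSubring) :
    pv P (x * y) = pv P x * pv P y := GRed.mul _ _ hx hy

theorem pv_neg (x : E) : pv P (-x) = -pv P x := GRed.neg _ _ x

theorem pv_inv (x : E) : pv P x⁻¹ = (pv P x)⁻¹ := GRed.inv (evHom_surjective P) x

theorem pv_pow (x : E) (n : ℕ) : pv P (x ^ n) = pv P x ^ n := GRed.pow (evHom_surjective P) x n

theorem pv_sum {ι : Type*} (s : Finset ι) (f : ι → E) (hf : ∀ i ∈ s, f i ∈ P.toValuationSubring) :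
    pv P (∑ i ∈ s, f i) = ∑ i ∈ s, pv P (f i) := GRed.sum _ _ s f hf

theorem pv_prod {ι : Type*} (s : Finset ι) (f : ι → E) (hf : ∀ i ∈ s, f i ∈ P.toValuationSubring) :
    pv P (∏ i ∈ s, f i) = ∏ i ∈ s, pv P (f i) := GRed.prod _ _ s f hf

theorem pv_ne_zero_iff {x : E} :
    pv P x ≠ 0 ↔ x ≠ 0 ∧ x ∈ P.toValuationSubring ∧ x⁻¹ ∈ P.toValuationSubring :=
  GRed.ne_zero_iff (evHom_surjective P)

theorem pv_smul (a : K) {x : E} (hx : x ∈ P.toValuationSubring) :
    pv P (algebraMap K E a * x) = a * pv P x := by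
  rw [pv_mul P (P.algebraMap_mem' a) hx, pv_algebraMap]

theorem mem_iff_ord_nonneg {x : E} (hx : x ≠ 0) : x ∈ P.toValuationSubring ↔ 0 ≤ P.ord x :=
  S24.mem_iff_ord_nonneg P hx

/-- `x(P) = 0` iff `x` vanishes at `P`. -/
theorem pv_eq_zero_iff {x : E} (hx : x ∈ P.toValuationSubring) :
    pv P x = 0 ↔ x = 0 ∨ 0 < P.ord x := by
  rw [pv, GRed.of_mem _ _ hx]
  have h := S24.Differential.residueAlgHom_eq_zero_iff P (curveBasic_residue_bijective P).2 ⟨x, hx⟩
  rw [S24.mem_maximalIdeal_iff] at h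
  exact h

/-- `x(P) = a` iff `x - a` vanishes at `P`. -/
theorem pv_eq_iff {x : E} (hx : x ∈ P.toValuationSubring) (a : K) :
    pv P x = a ↔ x = algebraMap K E a ∨ 0 < P.ord (x - algebraMap K E a) := by
  have h := pv_eq_zero_iff P (sub_mem hx (P.algebraMap_mem' a))
  rw [pv_sub P hx (P.algebraMap_mem' a), pv_algebraMap, sub_eq_zero, sub_eq_zero] at h
  exact h

/-- a zero of `x - a` is a point where `x` is regular with value `a`. -/
theorem mem_and_pv_eq_of_ord_pos {x : E} {a : K} (h : 0 < P.ord (x - algebraMap K E a)) :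
    x ∈ P.toValuationSubring ∧ pv P x = a := by
  have h0 : x - algebraMap K E a ≠ 0 := by
    intro h0
    rw [h0, Place.ord_zero] at h
    exact lt_irrefl _ h
  have h1 : x - algebraMap K E a ∈ P.toValuationSubring := (mem_iff_ord_nonneg P h0).mpr h.le
  have hx : x ∈ P.toValuationSubring := by
    have := add_mem h1 (P.algebraMap_mem' a)
    rwa [sub_add_cancel] at this
  exact ⟨hx, (pv_eq_iff P hx a).mpr (Or.inr h)⟩

theorem pv_aeval {x : E} (hx : x ∈ P.toValuationSubring) (p : K[X]) :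
    aeval x p ∈ P.toValuationSubring ∧ pv P (aeval x p) = p.eval (pv P x) := by
  induction p using Polynomial.induction_on' with
  | add p q hp hq =>
    refine ⟨by rw [map_add]; exact add_mem hp.1 hq.1, ?_⟩
    rw [map_add, pv_add P hp.1 hq.1, hp.2, hq.2, eval_add]
  | monomial n a =>
    have h1 : aeval x (monomial n a) = algebraMap K E a * x ^ n := by
      rw [aeval_monomial]
    refine ⟨by rw [h1]; exact mul_mem (P.algebraMap_mem' a) (pow_mem hx n), ?_⟩
    rw [h1, pv_smul P a (pow_mem hx n), pv_pow, eval_monomial]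

end Fermat.Agent.GAL.KLC
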